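/-
Project BAD, layer L-MOD, blocks PRE (generic closed points of a chart) and CUSP (cuspidal points).
Sub-architect: helper38.  Target: the fields `pts₁`, `pts₂` of `Fermat.Agent.S36.BP.Model`
(structure `PtHyp`), in the one-field language of `S36/BP/Defs.lean`.

* `PreModel`  : the fields of `S36.BP.Model` which do not speak of closed points or of norms, plus
                `gauss` (the reduction of the coordinate `x` on every component is transcendental).
* `PtBase`    : what the local analysis uses about a closed point `R` (proved for every closed point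
                of the special fibre of a chart of a `PreModel`: block PRE).
* `Rel`, `CuspData` : the input of the cusp analysis.  `s = 1/j(z)`, `s' = 1/j(qz)`,
                `s'' = 1/j(q²z)`; `Rel q c S T` is the modular equation `Φ_q(1/S, 1/T) = 0` multiplied
                by `(S T)^(q+1)`; only the shape `Φ_q = X^(q+1) + Y^(q+1) + ∑_{a,b ≤ q} c'_{ab} X^a Y^b`
                with `c'_{qq}` a unit is used (`c a b = c'_{q-a,q-b}`).
* `GoodBelow` : the component `W` is, near the point `R`, a copy of the good model of the lower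
                level whose function field is `E` (residue degree one + normality of that model).
-/
import Mathlib
import Fermat.Agent.S18.Defs
import Fermat.Agent.S36.BP.Defs

set_option autoImplicit false

noncomputable section

namespace Fermat.Agent.BAD.Model

open Fermat.Agent.S18 Fermat.Agent.S36.BP IntermediateField Polynomial

variable {K₀ F : Type*} [Field K₀] [Field F] [Algebra K₀ F]

/-- The part of `S36.BP.Model` which does not speak of closed points or of norms, plus `gauss`. -/
structure PreModel (A₀ : ValuationSubring K₀) (q : ℕ) (x : F) (V : Fin 3 → ValuationSubring F)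
    (ϖm : F) : Prop where
  base : BaseHyp A₀ q
  transc : Transcendental K₀ x
  finite : FiniteDimensional K₀⟮x⟯ F
  const_mem : ∀ c, ∀ a ∈ A₀, algebraMap K₀ F a ∈ V c
  x_unit : ∀ c, (V c).valuation x = 1
  /-- the reduction of `x` on the component `V c` is transcendental over the residue field -/
  gauss : ∀ c, ∀ p : K₀[X], (∀ i, p.coeff i ∈ A₀) → (V c).valuation (aeval x p) < 1 →
    ∀ i, A₀.valuation (p.coeff i) < 1
  inj : Function.Injective V
  unif0 : IsUnif (V 0) (q : F)
  unif1 : IsUnif (V 1) ϖm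
  unif2 : IsUnif (V 2) (q : F)
  ram1 : (V 1).valuation ϖm ^ (q - 1) = (V 1).valuation (q : F)
  qep₁ : ∀ y : F, (q : F) * y ∈ chart A₀.toSubring x → (∀ c, y ∈ V c) → y ∈ chart A₀.toSubring x
  qep₂ : ∀ y : F, (q : F) * y ∈ chart A₀.toSubring x⁻¹ → (∀ c, y ∈ V c) →
    y ∈ chart A₀.toSubring x⁻¹

/-- `R ⊆ V` and `V` is the localisation of `R` at `R ∩ 𝔪_V` (the first two fields of
`S36.BP.Through`). -/
def LeLoc (R : Subring F) (V : ValuationSubring F) : Prop :=
  (∀ r ∈ R, r ∈ V) ∧ ∀ y ∈ V, ∃ s ∈ R, V.valuation s = 1 ∧ s * y ∈ R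

/-- What the local analysis uses about a closed point `R` of the model. -/
structure PtBase (A₀ : ValuationSubring K₀) (q : ℕ) (V : Fin 3 → ValuationSubring F)
    (R : Subring F) : Prop where
  isPt : IsPt A₀ R
  leLoc_or_away : ∀ c, LeLoc R (V c) ∨ Away R (V c)
  not_all_away : ¬ ∀ c, Away R (V c)
  /-- the local `q`-expansion principle -/
  qep : ∀ y : F, (q : F) * y ∈ R → (∀ c, y ∈ V c ∨ Away R (V c)) → y ∈ R

/-- `∑_{a, b ≤ q} c a b S^a T^b`. -/
def eps (q : ℕ) (c : ℕ → ℕ → K₀) (S T : F) : F :=
  ∑ a ∈ Finset.range (q + 1), ∑ b ∈ Finset.range (q + 1), algebraMap K₀ F (c a b) * S ^ a * T ^ b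

/-- The modular equation of level `q` near the cusp, in the coordinates `S = 1/j`, `T = 1/j'`. -/
def Rel (q : ℕ) (c : ℕ → ℕ → K₀) (S T : F) : Prop :=
  S ^ (q + 1) + T ^ (q + 1) + S * T * eps q c S T = 0

/-- The input of the cusp analysis. -/
structure CuspData (A₀ : ValuationSubring K₀) (q : ℕ) (V : Fin 3 → ValuationSubring F)
    (c : ℕ → ℕ → K₀) (s s' s'' : F) : Prop where
  coeff_mem : ∀ a b, c a b ∈ A₀
  coeff_unit : A₀.valuation (c 0 0) = 1
  ne : s ≠ 0
  ne' : s' ≠ 0
  ne'' : s'' ≠ 0
  ne_s : s ≠ s''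
  rel : Rel q c s s'
  rel'' : Rel q c s'' s'
  unit : ∀ i, (V i).valuation s = 1
  cong0 : (V 0).valuation (s ^ q / s' - 1) < 1
  cong0' : (V 0).valuation (s' ^ q / s'' - 1) < 1
  cong1 : (V 1).valuation (s ^ q / s' - 1) < 1
  cong1' : (V 1).valuation (s'' ^ q / s' - 1) < 1
  cong2 : (V 2).valuation (s' ^ q / s - 1) < 1
  cong2' : (V 2).valuation (s'' ^ q / s' - 1) < 1

/-- Near the point `R`, the component `W` is a copy of the (normal) special fibre of the model of
the lower level with function field `E`. -/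
structure GoodBelow (W : ValuationSubring F) (E : Subfield F) (R : Subring F) : Prop where
  /-- residue degree one -/
  dense : ∀ y ∈ W, ∃ y' ∈ E, W.valuation (y' - y) < 1
  /-- the image of `R ∩ E` in the residue field of `W ∩ E` is a valuation ring -/
  branch : ∀ y ∈ E, W.valuation y = 1 →
    ∃ η ∈ R, η ∈ E ∧ (W.valuation (y - η) < 1 ∨ W.valuation (y⁻¹ - η) < 1)
  /-- whose maximal ideal is principal -/
  dvr : ∃ t ∈ rad R, ∀ y ∈ rad R, y ∈ E → ∃ r ∈ R, W.valuation (y - r * t) < 1

/-- The three types of cuspidal points. -/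
def Type0 (V : Fin 3 → ValuationSubring F) (R : Subring F) (q : ℕ) (s s' s'' : F) : Prop :=
  RUnit R (s ^ q / s') ∧ RUnit R (s' ^ q / s'') ∧ Away R (V 1) ∧ Away R (V 2)

def Type1 (V : Fin 3 → ValuationSubring F) (R : Subring F) (q : ℕ) (s s' s'' : F) : Prop :=
  RUnit R (s ^ q / s') ∧ RUnit R (s'' ^ q / s') ∧ Away R (V 0) ∧ Away R (V 2)

def Type2 (V : Fin 3 → ValuationSubring F) (R : Subring F) (q : ℕ) (s s' s'' : F) : Prop :=
  RUnit R (s' ^ q / s) ∧ RUnit R (s'' ^ q / s') ∧ Away R (V 0) ∧ Away R (V 1)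

end Fermat.Agent.BAD.Model
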