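/-
Project BAD, layer MODEL (architect helper98): abstract lemmas which PRODUCE the fields of
`Fermat.Agent.S36.BP.Model` (helper192) from explicit elements.  Definitions.
Language of `S36/BP/Defs.lean`: everything inside one field `F`.
-/
import Fermat.Agent.S36.BP.Defs

set_option autoImplicit false

namespace Fermat.Agent.BAD.Model

open Fermat.Agent.S18 Fermat.Agent.S36.BP

variable {F : Type*} [Field F] {K₀ : Type*} [Field K₀] [Algebra K₀ F]

/-- The generic facts about a local ring `R` of the normal model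
(`V c` = the three vertical valuations). -/
structure LocHyp (A₀ : ValuationSubring K₀) (q : ℕ) (V : Fin 3 → ValuationSubring F)
    (R : Subring F) : Prop where
  pt : IsPt A₀ R
  dich : ∀ c, (∀ r ∈ R, r ∈ V c) ∨ Away R (V c)
  /-- local `q`-expansion principle -/
  qep : ∀ y : F, (q : F) * y ∈ R → (∀ c, (∀ r ∈ R, r ∈ V c) → y ∈ V c) → y ∈ R
  loc : ∀ c, (∀ r ∈ R, r ∈ V c) → ∀ y ∈ V c, ∃ s ∈ R, (V c).valuation s = 1 ∧ s * y ∈ R
  /-- the components through `R` are normal at `R` -/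
  dvr : ∀ c, (∀ r ∈ R, r ∈ V c) →
    ∃ t ∈ rad R, ∀ y ∈ rad R, ∃ r ∈ R, (V c).valuation (y - r * t) < 1

/-- The "vertical" elements of level `q²`.  In the modular instance
`X₁ = q dt/dt'`, `X₂ = q dt'/dt''`, `Y_i = q² / X_i`, `T = t'' - t`; orders at `(V 0, V 1, V 2)`:
`X₁ : (0,0,2)`, `Y₁ : (2,2(q-1),0)`, `X₂ : (0,2(q-1),2)`, `Y₂ : (2,0,0)`, `T : (0,1,0)`. -/
structure VertElts (q : ℕ) (V : Fin 3 → ValuationSubring F) (T X₁ Y₁ X₂ Y₂ : F) : Prop where
  mul₁ : X₁ * Y₁ = (q : F) ^ 2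
  mul₂ : X₂ * Y₂ = (q : F) ^ 2
  X₁_0 : (V 0).valuation X₁ = 1
  X₁_1 : (V 1).valuation X₁ = 1
  Y₁_2 : (V 2).valuation Y₁ = 1
  X₂_0 : (V 0).valuation X₂ = 1
  Y₂_1 : (V 1).valuation Y₂ = 1
  Y₂_2 : (V 2).valuation Y₂ = 1
  /-- `X₂ / X₁ ≡ X₁ ^ (q-1)` on the component `V 0` -/
  Q1 : (V 0).valuation (X₂ / X₁ - X₁ ^ (q - 1)) < 1
  /-- `Y₂ ≡ X₁` on the component `V 1` -/
  Q3 : (V 1).valuation (Y₂ - X₁) < 1
  /-- `T ^ (q-1) X₁ ≡ - q` on the component `V 1` -/
  Q4 : (V 1).valuation (T ^ (q - 1) * X₁ / (q : F) + 1) < 1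

/-- The prime ideal of the subring `B ⊆ W` cut out by the maximal ideal of `W`. -/
def vprime (B : Subring F) (W : ValuationSubring F) (h : B ≤ W.toSubring) : Ideal B :=
  (IsLocalRing.maximalIdeal W).comap (Subring.inclusion h)

theorem mem_vprime {B : Subring F} {W : ValuationSubring F} (h : B ≤ W.toSubring) (b : B) :
    b ∈ vprime B W h ↔ W.valuation (b : F) < 1 := by
  rw [vprime, Ideal.mem_comap, ValuationSubring.valuation_lt_one_iff]
  rfl

instance {B : Subring F} {W : ValuationSubring F} (h : B ≤ W.toSubring) :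
    (vprime B W h).IsPrime := Ideal.comap_isPrime _ _

end Fermat.Agent.BAD.Model
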