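/-
Project BAD, layer MODEL (architect helper98): THE CONTRACT between the modular blocks and the
abstract model `Fermat.Agent.S36.BP.Model` (helper192).

`InstData` lists, in the abstract language (one field `F` = level `N₀ q²`, one field `F₀` = level
`N₀`, the two embeddings `ιa = α ∘ α`, `ιb = β ∘ β`), everything the modular side has to prove.
`model_of_instData : InstData .. → Model ..` is pure algebra (BUILD toolbox of helper192 + the nodes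
of `BAD/Model/WIP/Skeleton.lean`).
-/
import Fermat.Agent.BAD.Model.InstDefs
import Fermat.Agent.BAD.Model.Defs

set_option autoImplicit false

namespace Fermat.Agent.BAD.Model

open Fermat.Agent.S18 Fermat.Agent.S36.BP IntermediateField

variable {K₀ F₀ F : Type*} [Field K₀] [Field F₀] [Field F] [Algebra K₀ F₀] [Algebra K₀ F]

/-- `R` is the local ring of one of the two charts at a closed point of the special fibre. -/
def IsMPt (A₀ : ValuationSubring K₀) (q : ℕ) (x : F) (R : Subring F) : Prop :=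
  (∃ (𝔫 : Ideal (chart A₀.toSubring x)) (_ : 𝔫.IsMaximal), (q : chart A₀.toSubring x) ∈ 𝔫 ∧
    R = locSub (chart A₀.toSubring x) 𝔫) ∨
  (∃ (𝔫 : Ideal (chart A₀.toSubring x⁻¹)) (_ : 𝔫.IsMaximal), (q : chart A₀.toSubring x⁻¹) ∈ 𝔫 ∧
    R = locSub (chart A₀.toSubring x⁻¹) 𝔫)

/-- **The modular input, part common to all routes.**  In the instance: `F₀ = FK K N₀`,
`F = FK K (N₀ q²)`, `ιa f = f(z)`,
`ιb f = f(q² z)`, `x₀` = the base coordinate of KL-A (`j` for `q ≥ 5`, `h₂` for `q = 3`, `h₃` for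
`q = 2`), `j₀ = j`, `Ow` = the Gauss valuation ring of level `N₀`,
`V 0, V 1, V 2` = the three vertical valuation rings (cusps `∞`, `1/q`, `0`),
`ϖm = j(q² z) - j(z)` (any uniformiser of `V 1`); in `elts`: `T = t(q² z) - t(z)`
(`t` the Hauptmodul of level `4` or `9`). -/
structure InstBase (A₀ : ValuationSubring K₀) (q : ℕ) (ιa ιb : F₀ →ₐ[K₀] F) (x₀ j₀ : F₀)
    (Ow : ValuationSubring F₀) (V : Fin 3 → ValuationSubring F) (ϖm : F) (Eα Eβ : Subfield F)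
    (Nα Nβ : F →* F) : Prop where
  base : BaseHyp A₀ q
  -- (L0) the good level `N₀`   [owner helper39, from KL-A]
  transc₀ : Transcendental K₀ x₀
  finite : FiniteDimensional K₀⟮ιa x₀⟯ F
  finite_b : FiniteDimensional K₀⟮ιb x₀⟯ F
  unifw : IsUnif Ow (q : F₀)
  const₀ : ∀ a ∈ A₀, algebraMap K₀ F₀ a ∈ Ow
  x_unit₀ : Ow.valuation x₀ = 1
  chart₁ : IsChart Ow (q : F₀) (chart A₀.toSubring x₀)
  chart₂ : IsChart Ow (q : F₀) (chart A₀.toSubring x₀⁻¹)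
  -- (VAL) the three vertical valuations   [owner helper156]
  comap_a : ∀ c, (V c).comap (ιa : F₀ →+* F) = Ow
  comap_b : ∀ c, (V c).comap (ιb : F₀ →+* F) = Ow
  complete : ∀ W : ValuationSubring F, W.comap (ιa : F₀ →+* F) = Ow → ∃ c, W = V c
  complete_b : ∀ W : ValuationSubring F, W.comap (ιb : F₀ →+* F) = Ow → ∃ c, W = V c
  inj : Function.Injective V
  unif0 : IsUnif (V 0) (q : F)
  unif1 : IsUnif (V 1) ϖm
  unif2 : IsUnif (V 2) (q : F)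
  ram1 : (V 1).valuation ϖm ^ (q - 1) = (V 1).valuation (q : F)
  dense0a : ∀ y ∈ V 0, ∃ y' : F₀, (V 0).valuation (ιa y' - y) < 1
  dense1a : ∀ y ∈ V 1, ∃ y' : F₀, (V 1).valuation (ιa y' - y) < 1
  dense1b : ∀ y ∈ V 1, ∃ y' : F₀, (V 1).valuation (ιb y' - y) < 1
  dense2b : ∀ y ∈ V 2, ∃ y' : F₀, (V 2).valuation (ιb y' - y) < 1
  -- (HALF) the two degeneracy maps from level `N₀ q`   [owner helper154]
  range_a : ∀ f, ιa f ∈ Eα
  range_b : ∀ f, ιb f ∈ Eβ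
  normα_const : ∀ a : K₀, Nα (algebraMap K₀ F a) = algebraMap K₀ F a ^ q
  normβ_const : ∀ a : K₀, Nβ (algebraMap K₀ F a) = algebraMap K₀ F a ^ q
  halfα : Half q ϖm Eα Nα (V 0) (V 1) (V 2)
  halfβ : Half q ϖm Eβ Nβ (V 2) (V 1) (V 0)
  normα_int : ∀ z : F₀, ∀ b ∈ chart A₀.toSubring (ιa z), Nα b ∈ chart A₀.toSubring (ιa z)
  normβ_int : ∀ z : F₀, ∀ b ∈ chart A₀.toSubring (ιb z), Nβ b ∈ chart A₀.toSubring (ιb z)
  -- (SYM) the model built on `x(z)` and the model built on `x(q² z)` have the same points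
  sym_ab : ∀ R : Subring F, IsPt A₀ R → (ιa x₀ ∈ R ∨ (ιa x₀)⁻¹ ∈ R) →
    (ιb x₀ ∈ R ∨ (ιb x₀)⁻¹ ∈ R)
  sym_ba : ∀ R : Subring F, IsPt A₀ R → (ιb x₀ ∈ R ∨ (ιb x₀)⁻¹ ∈ R) →
    (ιa x₀ ∈ R ∨ (ιa x₀)⁻¹ ∈ R)
  -- (DICH) every closed point is cuspidal or non-cuspidal
  dich : ∀ R : Subring F, IsPt A₀ R → (ιa x₀ ∈ R ∨ (ιa x₀)⁻¹ ∈ R) →
    ιa j₀ ∈ R ∨ (ιa j₀)⁻¹ ∈ rad R

/-- `InstBase` + the point data of the derivative route (`elts`, `thick`, `cuspData`).  The eta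
route (`CuspData`, `NonCuspData`) only needs `InstBase`. -/
structure InstData (A₀ : ValuationSubring K₀) (q : ℕ) (ιa ιb : F₀ →ₐ[K₀] F) (x₀ j₀ : F₀)
    (Ow : ValuationSubring F₀) (V : Fin 3 → ValuationSubring F) (ϖm : F) (Eα Eβ : Subfield F)
    (Nα Nβ : F →* F) : Prop extends InstBase A₀ q ιa ιb x₀ j₀ Ow V ϖm Eα Eβ Nα Nβ where
  -- (ELTS) the vertical elements on the non-cuspidal chart
  elts : ∃ T X₁ Y₁ X₂ Y₂ : F, VertElts q V T X₁ Y₁ X₂ Y₂ ∧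
    T ∈ chart A₀.toSubring (ιa j₀) ∧
    X₁ ∈ chart A₀.toSubring (ιa j₀) ∧ Y₁ ∈ chart A₀.toSubring (ιa j₀) ∧
    X₂ ∈ chart A₀.toSubring (ιa j₀) ∧ Y₂ ∈ chart A₀.toSubring (ιa j₀)
  -- (THICK) thickness one at the crossing points
  thick : ∀ R : Subring F, IsMPt A₀ q (ιa x₀) R → ιa j₀ ∈ R → (∀ c, Through R (V c)) →
    ∃ z z' : F, z ∈ R ∧ z' ∈ R ∧ RUnit R (z * z' / (q : F)) ∧ (V 2).valuation z < 1 ∧
      (V 2).valuation z' = 1 ∧ (V 0).valuation z = 1 ∧ (V 1).valuation z = 1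
  -- (CUSP) the cusps: helper38's `CuspData` for `s = 1/j(z)`, `s' = 1/j(qz)`, `s'' = 1/j(q² z)`
  cuspData : ∃ (c : ℕ → ℕ → K₀) (s' : F), CuspData A₀ q V c (ιa j₀)⁻¹ s' (ιb j₀)⁻¹

end Fermat.Agent.BAD.Model
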