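/-
Project BAD, layer MODEL, node A1 (owner helper163): `Model.isPt` and `Model.qep_loc` without a
`Model` (the proofs of `S36/BP/Loc.lean`, `S36/BP/LocQep.lean` only use the hypotheses below).
-/
import Fermat.Agent.BAD.Model.Inst
import Fermat.Agent.S36.BP.Build.LocalCrit
import Fermat.Agent.S36.BP.Loc
import Fermat.Agent.S36.BP.LocQep

set_option autoImplicit false
set_option linter.style.haveILetI false

namespace Fermat.Agent.BAD.Model

open Fermat.Agent.S18 Fermat.Agent.S36.BP Fermat.Agent.S36.BP.Build IntermediateField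

variable {F : Type*} [Field F] {K₀ : Type*} [Field K₀] [Algebra K₀ F]
  {A₀ : ValuationSubring K₀} {q : ℕ} {V : Fin 3 → ValuationSubring F} {R : Subring F}

section PreLoc

variable {x : F}

theorem isPt_of_base (hb : BaseHyp A₀ q) (htr : Transcendental K₀ x)
    (hfin : FiniteDimensional K₀⟮x⟯ F) (𝔫 : Ideal (chart A₀.toSubring x)) [𝔫.IsMaximal]
    (h𝔫 : (q : chart A₀.toSubring x) ∈ 𝔫) : IsPt A₀ (locSub (chart A₀.toSubring x) 𝔫) := by
  haveI := hb.charZero
  have h₀ := hb.unif
  have hq : constToChart A₀ x ⟨(q : K₀), h₀.mem⟩ ∈ 𝔫 := by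
    have : constToChart A₀ x ⟨(q : K₀), h₀.mem⟩ = (q : chart A₀.toSubring x) := by
      apply Subtype.ext
      rw [coe_constToChart]
      simp
    rw [this]
    exact h𝔫
  have hconst_rad : ∀ a : K₀, A₀.valuation a < 1 →
      algebraMap K₀ F a ∈ rad (locSub (chart A₀.toSubring x) 𝔫) := by
    intro a ha
    obtain ⟨a', ha', e⟩ := exists_eq_unif_mul h₀ ha
    have h1 : constToChart A₀ x ⟨(q : K₀), h₀.mem⟩ * constToChart A₀ x ⟨a', ha'⟩ ∈ 𝔫 :=
      𝔫.mul_mem_right _ hq
    have h2 := coe_mem_rad_locSub h1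
    have h3 : ((constToChart A₀ x ⟨(q : K₀), h₀.mem⟩ * constToChart A₀ x ⟨a', ha'⟩ :
        chart A₀.toSubring x) : F) = algebraMap K₀ F a := by
      push_cast
      rw [coe_constToChart, coe_constToChart, e, map_mul]
    rwa [h3] at h2
  have hres := exists_const_sub_mem h₀ hb.algClosed htr hfin 𝔫 hq
  refine ⟨fun a ha b hb => add_mem_rad_locSub ha hb, ?_, hconst_rad, ?_, ?_, ?_⟩
  · intro a ha
    exact le_locSub (constToChart A₀ x ⟨a, ha⟩).2
  · rintro r ⟨b, s, hs, e⟩
    obtain ⟨β, hβ⟩ := hres b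
    obtain ⟨σ, hσ⟩ := hres s
    have hs0 := coe_ne_zero_of_notMem hs
    -- `σ` is a unit of `A₀`
    have hσn : constToChart A₀ x σ ∉ 𝔫 := by
      intro h
      apply hs
      have := 𝔫.add_mem hσ h
      simpa using this
    have hσ0 : (σ : K₀) ≠ 0 := by
      intro h
      apply hσn
      have : σ = 0 := Subtype.ext h
      rw [this, map_zero]
      exact 𝔫.zero_mem
    have hσu : ¬ A₀.valuation (σ : K₀) < 1 := by
      intro hlt
      obtain ⟨a', ha', e'⟩ := exists_eq_unif_mul h₀ hlt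
      apply hσn
      have : σ = ⟨(q : K₀), h₀.mem⟩ * ⟨a', ha'⟩ := Subtype.ext e'
      rw [this, map_mul]
      exact 𝔫.mul_mem_right _ hq
    have hσinv : (σ : K₀)⁻¹ ∈ A₀ := by
      rw [← A₀.valuation_le_one_iff, map_inv₀]
      have h1 : A₀.valuation (σ : K₀) = 1 :=
        le_antisymm ((A₀.valuation_le_one_iff _).mpr σ.2) (not_lt.mp hσu)
      rw [h1, inv_one]
    refine ⟨(β : K₀) * (σ : K₀)⁻¹, A₀.mul_mem _ _ β.2 hσinv, ?_⟩
    rw [mem_rad_locSub_iff]
    refine ⟨(b - constToChart A₀ x β) * constToChart A₀ x σ -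
        constToChart A₀ x β * (s - constToChart A₀ x σ), s * constToChart A₀ x σ,
      𝔫.sub_mem (𝔫.mul_mem_right _ hβ) (𝔫.mul_mem_left _ hσ),
      fun h => (Ideal.IsPrime.mem_or_mem inferInstance h).elim hs hσn, ?_⟩
    have hσF : algebraMap K₀ F (σ : K₀) ≠ 0 := (map_ne_zero _).mpr hσ0
    have key : (r - algebraMap K₀ F ((β : K₀) * (σ : K₀)⁻¹)) *
        ((s : F) * algebraMap K₀ F (σ : K₀)) =
        ((b : F) - algebraMap K₀ F (β : K₀)) * algebraMap K₀ F (σ : K₀) -
          algebraMap K₀ F (β : K₀) * ((s : F) - algebraMap K₀ F (σ : K₀)) := by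
      rw [← e, map_mul, map_inv₀]
      field_simp
      ring
    exact key
  · exact mem_locSub_of_isIntegral (fun y hy => mem_chart_of_isIntegral_chart _ _ _ hy)
  · haveI := isNoetherianRing_chart h₀ htr hfin
    exact isNoetherianRing_locSub

theorem qep_loc_of (hB : ∀ c, ∀ b ∈ chart A₀.toSubring x, b ∈ V c)
    (hU : ∀ c, ∃ ϖ : F, IsUnif (V c) ϖ)
    (hqep : ∀ y : F, (q : F) * y ∈ chart A₀.toSubring x → (∀ c, y ∈ V c) →
      y ∈ chart A₀.toSubring x)
    (𝔫 : Ideal (chart A₀.toSubring x)) [𝔫.IsMaximal]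
    (hta : ∀ c, Through (locSub (chart A₀.toSubring x) 𝔫) (V c) ∨
      Away (locSub (chart A₀.toSubring x) 𝔫) (V c)) :
    LocQep q V (locSub (chart A₀.toSubring x) 𝔫) := by
  intro y h1 h2
  have hpr : 𝔫.IsPrime := Ideal.IsMaximal.isPrime inferInstance
  have ht : ∀ c, ∃ t : chart A₀.toSubring x, t ∉ 𝔫 ∧ (t : F) * y ∈ V c := by
    intro c
    rcases hta c with hT | hA
    · refine ⟨1, fun h => hpr.ne_top ((Ideal.eq_top_iff_one _).2 h), ?_⟩
      rw [Subring.coe_one, one_mul]
      exact h2 c hT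
    · obtain ⟨a, ha, hlt⟩ := LocQep.exists_of_away (hB c) hA
      obtain ⟨ϖ, hϖ⟩ := hU c
      obtain ⟨k, hk⟩ := LocQep.exists_pow_mul_mem hϖ hlt y
      refine ⟨a ^ k, fun h => ha (hpr.mem_of_pow_mem k h), ?_⟩
      rw [Subring.coe_pow]
      exact hk
  choose t ht1 ht2 using ht
  obtain ⟨a, s, hs, has⟩ := h1
  have hT : t 0 * t 1 * t 2 * s ∉ 𝔫 := by
    intro h
    rcases hpr.mem_or_mem h with h | h
    · rcases hpr.mem_or_mem h with h | h
      · rcases hpr.mem_or_mem h with h | h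
        · exact ht1 0 h
        · exact ht1 1 h
      · exact ht1 2 h
    · exact hs h
  have hy' : ((t 0 * t 1 * t 2 * s : chart A₀.toSubring x) : F) * y ∈ chart A₀.toSubring x := by
    apply hqep
    · have e : (q : F) * (((t 0 * t 1 * t 2 * s : chart A₀.toSubring x) : F) * y)
          = ((t 0 * t 1 * t 2 * a : chart A₀.toSubring x) : F) := by
        push_cast
        rw [← has]
        ring
      rw [e]
      exact Subtype.property _
    · intro c
      fin_cases c
      · have e : ((t 0 * t 1 * t 2 * s : chart A₀.toSubring x) : F) * y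
            = ((t 1 * t 2 * s : chart A₀.toSubring x) : F) * ((t 0 : F) * y) := by
          push_cast; ring
        rw [e]
        exact (V 0).mul_mem _ _ (hB 0 _ (Subtype.property _)) (ht2 0)
      · have e : ((t 0 * t 1 * t 2 * s : chart A₀.toSubring x) : F) * y
            = ((t 0 * t 2 * s : chart A₀.toSubring x) : F) * ((t 1 : F) * y) := by
          push_cast; ring
        rw [e]
        exact (V 1).mul_mem _ _ (hB 1 _ (Subtype.property _)) (ht2 1)
      · have e : ((t 0 * t 1 * t 2 * s : chart A₀.toSubring x) : F) * y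
            = ((t 0 * t 1 * s : chart A₀.toSubring x) : F) * ((t 2 : F) * y) := by
          push_cast; ring
        rw [e]
        exact (V 2).mul_mem _ _ (hB 2 _ (Subtype.property _)) (ht2 2)
  exact ⟨⟨_, hy'⟩, t 0 * t 1 * t 2 * s, hT, mul_comm _ _⟩

end PreLoc

end Fermat.Agent.BAD.Model
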