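/-
Project BAD, layer MODEL, node A7 (owner helper14): the closed points of the model do not depend
on the coordinate.
-/
import Fermat.Agent.BAD.Model.Inst
import Fermat.Agent.BAD.Model.PreLoc
import Fermat.Agent.BAD.Model.Pre.Overlap

set_option autoImplicit false
set_option linter.style.haveILetI false

namespace Fermat.Agent.BAD.Model

open Fermat.Agent.S18 Fermat.Agent.S36.BP Fermat.Agent.S36.BP.Build IntermediateField

variable {F : Type*} [Field F] {K₀ : Type*} [Field K₀] [Algebra K₀ F]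
  {A₀ : ValuationSubring K₀} {q : ℕ} {V : Fin 3 → ValuationSubring F} {R : Subring F}

namespace Change

/-- the constants lie in every chart. -/
theorem const_mem_chart (ξ : F) : ∀ a ∈ A₀, algebraMap K₀ F a ∈ chart A₀.toSubring ξ :=
  fun _ ha => polyRing_le_chart _ _ (Overlap.algebraMap_mem_polyRing A₀.toSubring ξ ha)

/-- `q` is in the radical of a point. -/
theorem natCast_mem_rad (hb : BaseHyp A₀ q) (hR : IsPt A₀ R) : (q : F) ∈ rad R := by
  have hq : A₀.valuation (q : K₀) < 1 := by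
    rcases lt_or_eq_of_le ((A₀.valuation_le_one_iff _).mpr hb.unif.mem) with hlt | heq
    · exact hlt
    · exact absurd (val_eq_one_iff.1 heq).2.2 hb.unif.inv_notMem
  have h1 := hR.const_rad _ hq
  rwa [map_natCast] at h1

/-- an element of the localisation of `B ⊆ R` at the trace of the radical of `R` which is a unit
of `R` is a unit of the localisation. -/
theorem runit_loc_of_runit (hR : IsPt A₀ R) (B : Subring F) (hB : ∀ b ∈ B, b ∈ R)
    [(radIdeal hR B hB).IsPrime] {y : F} (hy : y ∈ locSub B (radIdeal hR B hB))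
    (hu : RUnit R y) : RUnit (locSub B (radIdeal hR B hB)) y := by
  obtain ⟨a, s, hs, e⟩ := hy
  have hsu : RUnit R (s : F) := (runit_or_mem_rad (hB _ s.2)).resolve_right hs
  have hau : RUnit R (a : F) := e ▸ hu.mul hsu
  exact rUnit_locSub_iff.mpr ⟨a, s, fun h => ((mem_radIdeal hR B hB a).1 h).2 hau, hs, e⟩

/-- the localisation of `B ⊆ R` at the trace of the radical of `R` is contained in `R`. -/
theorem loc_le (hR : IsPt A₀ R) (B : Subring F) (hB : ∀ b ∈ B, b ∈ R)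
    [(radIdeal hR B hB).IsPrime] {y : F} (hy : y ∈ locSub B (radIdeal hR B hB)) : y ∈ R := by
  obtain ⟨a, s, hs, e⟩ := hy
  have hsu : RUnit R (s : F) := (runit_or_mem_rad (hB _ s.2)).resolve_right hs
  have : y = (a : F) * (s : F)⁻¹ := by
    rw [← e, mul_assoc, mul_inv_cancel₀ hsu.ne_zero, mul_one]
  rw [this]
  exact R.mul_mem (hB _ a.2) hsu.inv_mem

/-- **Key lemma**: a point of the chart of `ξ` which contains `ξ'` is a point of the chart of
`ξ'`. -/
theorem key (hb : BaseHyp A₀ q) {ξ ξ' : F} (htr' : Transcendental K₀ ξ')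
    (hfin' : FiniteDimensional K₀⟮ξ'⟯ F)
    (𝔫 : Ideal (chart A₀.toSubring ξ)) [𝔫.IsMaximal]
    (hR : IsPt A₀ (locSub (chart A₀.toSubring ξ) 𝔫))
    (hξ' : ξ' ∈ locSub (chart A₀.toSubring ξ) 𝔫)
    (h' : ∀ R' : Subring F, IsPt A₀ R' → ξ' ∈ R' → (ξ ∈ R' ∨ ξ⁻¹ ∈ R')) :
    ∃ (𝔪 : Ideal (chart A₀.toSubring ξ')) (_ : 𝔪.IsMaximal), (q : chart A₀.toSubring ξ') ∈ 𝔪 ∧
      locSub (chart A₀.toSubring ξ) 𝔫 = locSub (chart A₀.toSubring ξ') 𝔪 := by
  set R := locSub (chart A₀.toSubring ξ) 𝔫 with hRdef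
  have hB := chart_le_of_isPt hR hξ'
  haveI hmax := radIdeal_isMaximal hR _ hB (const_mem_chart ξ')
  have hq : (q : chart A₀.toSubring ξ') ∈ radIdeal hR _ hB := by
    rw [mem_radIdeal]
    simpa using natCast_mem_rad hb hR
  have hR' : IsPt A₀ (locSub (chart A₀.toSubring ξ') (radIdeal hR _ hB)) :=
    isPt_of_base hb htr' hfin' _ hq
  have hξR : ξ ∈ R := le_locSub (self_mem_chart _)
  have hξ : ξ ∈ locSub (chart A₀.toSubring ξ') (radIdeal hR _ hB) := by
    rcases h' _ hR' (le_locSub (self_mem_chart _)) with h1 | h1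
    · exact h1
    · rcases eq_or_ne ξ 0 with h0 | h0
      · rw [h0]; exact Subring.zero_mem _
      have hu : RUnit R ξ⁻¹ := ⟨inv_ne_zero h0, loc_le hR _ hB h1, by rwa [inv_inv]⟩
      have := (runit_loc_of_runit hR _ hB h1 hu).inv_mem
      rwa [inv_inv] at this
  have hle := chart_le_of_isPt hR' hξ
  refine ⟨radIdeal hR _ hB, hmax, hq, le_antisymm ?_ fun y hy => loc_le hR _ hB hy⟩
  rintro y ⟨a, s, hs, e⟩
  have hsu : RUnit R (s : F) := ⟨coe_ne_zero_of_notMem hs, le_locSub s.2, inv_mem_locSub hs⟩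
  have hsu' := runit_loc_of_runit hR _ hB (hle _ s.2) hsu
  have : y = (a : F) * (s : F)⁻¹ := by
    rw [← e, mul_assoc, mul_inv_cancel₀ hsu.ne_zero, mul_one]
  rw [this]
  exact Subring.mul_mem _ (hle _ a.2) hsu'.inv_mem

end Change

theorem IsMPt.isPt (hb : BaseHyp A₀ q) {x : F} (htr : Transcendental K₀ x)
    (hfin : FiniteDimensional K₀⟮x⟯ F) (hR : IsMPt A₀ q x R) : IsPt A₀ R := by
  rcases hR with ⟨𝔫, h𝔫, hq, rfl⟩ | ⟨𝔫, h𝔫, hq, rfl⟩
  · exact isPt_of_base hb htr hfin 𝔫 hq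
  · refine isPt_of_base hb (transcendental_inv htr) ?_ 𝔫 hq
    rw [adjoin_simple_inv_eq]
    exact hfin

/-- the closed points only depend on the coordinate up to "`x' ∈ R` or `x'⁻¹ ∈ R`". -/
theorem isMPt_change (hb : BaseHyp A₀ q) {x x' : F} (htr : Transcendental K₀ x)
    (hfin : FiniteDimensional K₀⟮x⟯ F) (htr' : Transcendental K₀ x')
    (hfin' : FiniteDimensional K₀⟮x'⟯ F)
    (h : ∀ R : Subring F, IsPt A₀ R → (x ∈ R ∨ x⁻¹ ∈ R) → (x' ∈ R ∨ x'⁻¹ ∈ R))
    (h' : ∀ R : Subring F, IsPt A₀ R → (x' ∈ R ∨ x'⁻¹ ∈ R) → (x ∈ R ∨ x⁻¹ ∈ R))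
    (hR : IsMPt A₀ q x R) : IsMPt A₀ q x' R := by
  have hpt : IsPt A₀ R := hR.isPt hb htr hfin
  have hfini' : FiniteDimensional K₀⟮x'⁻¹⟯ F := by
    rw [adjoin_simple_inv_eq]
    exact hfin'
  rcases hR with ⟨𝔫, h𝔫, hq, rfl⟩ | ⟨𝔫, h𝔫, hq, rfl⟩
  · rcases h _ hpt (Or.inl (le_locSub (self_mem_chart _))) with h1 | h1
    · exact Or.inl (Change.key hb htr' hfin' 𝔫 hpt h1 fun R' hR' hx => h' R' hR' (Or.inl hx))
    · exact Or.inr (Change.key hb (transcendental_inv htr') hfini' 𝔫 hpt h1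
        fun R' hR' hx => h' R' hR' (Or.inr hx))
  · rcases h _ hpt (Or.inr (le_locSub (self_mem_chart _))) with h1 | h1
    · exact Or.inl (Change.key hb htr' hfin' 𝔫 hpt h1
        fun R' hR' hx => by rw [inv_inv]; exact (h' R' hR' (Or.inl hx)).symm)
    · exact Or.inr (Change.key hb (transcendental_inv htr') hfini' 𝔫 hpt h1
        fun R' hR' hx => by rw [inv_inv]; exact (h' R' hR' (Or.inr hx)).symm)

end Fermat.Agent.BAD.Model
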