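/-
Project BAD, layer MODEL, node A3 (owner helper217): the local hypotheses `PtHyp` at the cuspidal
points, from the trichotomy for `y = j'' / j`.
-/
import Fermat.Agent.BAD.Model.Inst
import Fermat.Agent.S36.BP.Build.LocalCrit
import Fermat.Agent.S36.BP.Approx

set_option autoImplicit false

namespace Fermat.Agent.BAD.Model

open Fermat.Agent.S18 Fermat.Agent.S36.BP Fermat.Agent.S36.BP.Build IntermediateField

variable {F : Type*} [Field F] {K₀ : Type*} [Field K₀] [Algebra K₀ F]
  {A₀ : ValuationSubring K₀} {q : ℕ} {V : Fin 3 → ValuationSubring F} {R : Subring F}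

theorem cusp_false_of_sub_one (hadd : ∀ a ∈ rad R, ∀ b ∈ rad R, a + b ∈ rad R) {a : F}
    (ha : a ∈ rad R) (ha1 : a - 1 ∈ rad R) : False := by
  have h := hadd _ ha _ (neg_mem_rad ha1)
  have e : a + -(a - 1) = 1 := by ring
  rw [e] at h
  exact h.2 (RUnit.one R)

theorem cusp_pow_mem_rad {a : F} (ha : a ∈ rad R) {n : ℕ} (hn : n ≠ 0) : a ^ n ∈ rad R := by
  obtain ⟨m, rfl⟩ := Nat.exists_eq_succ_of_ne_zero hn
  rw [pow_succ]
  exact mul_mem_rad (R.pow_mem ha.1 m) ha

/-- only one component passes through the point, and its prime is principal. -/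
theorem cusp_ptHyp_of_single {Eα Eβ : Subfield F} {Nα Nβ : F →* F} (hq0 : (q : F) ≠ 0)
    (hta : ∀ c, Through R (V c) ∨ Away R (V c)) (hqep : LocQep q V R) (hqR : (q : F) ∈ rad R)
    (c₀ : Fin 3) (haway : ∀ c', c' ≠ c₀ → Away R (V c'))
    (hpr : Through R (V c₀) → Princ R (V c₀)) : PtHyp V Eα Eβ Nα Nβ R := by
  have hthr : Through R (V c₀) := by
    obtain ⟨c, hc⟩ := exists_through hqep hq0 hqR
    by_cases h : c = c₀
    · exact h ▸ hc
    · exact absurd (haway c h) (not_away_of_through hc)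
  exact ⟨hta, ⟨c₀, hthr, hpr hthr⟩, Or.inl ⟨c₀, haway⟩⟩

/-- `q` generates the prime of an unramified component which is alone. -/
theorem cusp_princ_q (hq0 : (q : F) ≠ 0) (hqep : LocQep q V R) (hqR : (q : F) ∈ rad R)
    (c₀ : Fin 3) (hU : IsUnif (V c₀) (q : F)) (haway : ∀ c', c' ≠ c₀ → Away R (V c')) :
    Princ R (V c₀) :=
  princ_of hqep c₀ hqR.1 hq0 (k := 1) (by rw [pow_one, div_self hq0]; exact R.one_mem)
    (approx_val_unif_lt_one hU) (fun _ hy => approx_val_le_unif hU hy)
    (fun c hc ht => absurd (haway c hc) (not_away_of_through ht))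

/-- **Cuspidal points.** -/
theorem ptHyp_of_cusp {ϖm u u'' y ρ : F} {Eα Eβ : Subfield F} {Nα Nβ : F →* F} (hq : q.Prime)
    (hq0 : (q : F) ≠ 0) (hadd : ∀ a ∈ rad R, ∀ b ∈ rad R, a + b ∈ rad R)
    (hta : ∀ c, Through R (V c) ∨ Away R (V c)) (hqep : LocQep q V R) (hqR : (q : F) ∈ rad R)
    (unif0 : IsUnif (V 0) (q : F)) (unif1 : IsUnif (V 1) ϖm) (unif2 : IsUnif (V 2) (q : F))
    (ram1 : (V 1).valuation ϖm ^ (q - 1) = (V 1).valuation (q : F))
    (hu : u ∈ rad R) (hu'' : u'' ∈ rad R)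
    (htri : y ∈ rad R ∨ y - 1 ∈ rad R ∨ y⁻¹ ∈ rad R)
    (c0 : (V 0).valuation (y * u ^ (q ^ 2 - 1) - 1) < 1)
    (c1 : (V 1).valuation (y - 1) < 1)
    (c2 : (V 2).valuation (y - u'' ^ (q ^ 2 - 1)) < 1)
    (hρ : RUnit R ρ) (hρ' : (V 1).valuation ((y - 1) ^ (q - 1) / (q : F) - ρ) < 1) :
    PtHyp V Eα Eβ Nα Nβ R := by
  have hq2 : 2 ≤ q := hq.two_le
  have hN : q ^ 2 - 1 ≠ 0 := by
    have : 4 ≤ q ^ 2 := by nlinarith
    omega
  have hy0 : y ≠ 0 := by
    rintro rfl
    rw [zero_sub, Valuation.map_neg, map_one] at c1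
    exact lt_irrefl _ c1
  have huN : u ^ (q ^ 2 - 1) ∈ rad R := cusp_pow_mem_rad hu hN
  have hu''N : u'' ^ (q ^ 2 - 1) ∈ rad R := cusp_pow_mem_rad hu'' hN
  rcases htri with hy | hy | hy
  · -- `y ∈ rad R`: only `V 2`
    have a0 : Away R (V 0) := (hta 0).resolve_left fun ht =>
      cusp_false_of_sub_one hadd (mul_mem_rad hy.1 huN)
        (mem_rad_of_val_lt ht.le (R.sub_mem (R.mul_mem hy.1 huN.1) R.one_mem) c0)
    have a1 : Away R (V 1) := (hta 1).resolve_left fun ht =>
      cusp_false_of_sub_one hadd hy (mem_rad_of_val_lt ht.le (R.sub_mem hy.1 R.one_mem) c1)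
    have haway : ∀ c', c' ≠ (2 : Fin 3) → Away R (V c') := by
      intro c' hc'
      fin_cases c'
      · exact a0
      · exact a1
      · exact absurd rfl hc'
    exact cusp_ptHyp_of_single hq0 hta hqep hqR 2 haway
      fun _ => cusp_princ_q hq0 hqep hqR 2 unif2 haway
  · -- `y - 1 ∈ rad R`: only `V 1`
    have hyR : y ∈ R := by
      have := R.add_mem hy.1 R.one_mem
      rwa [sub_add_cancel] at this
    have hyrad : y ∉ rad R := fun h => cusp_false_of_sub_one hadd h hy
    have a0 : Away R (V 0) := (hta 0).resolve_left fun ht =>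
      cusp_false_of_sub_one hadd (mul_mem_rad hyR huN)
        (mem_rad_of_val_lt ht.le (R.sub_mem (R.mul_mem hyR huN.1) R.one_mem) c0)
    have a2 : Away R (V 2) := (hta 2).resolve_left fun ht => by
      have h1 : y - u'' ^ (q ^ 2 - 1) ∈ rad R :=
        mem_rad_of_val_lt ht.le (R.sub_mem hyR hu''N.1) c2
      exact hyrad ((mem_rad_iff_of_sub hadd h1).mpr hu''N)
    have haway : ∀ c', c' ≠ (1 : Fin 3) → Away R (V c') := by
      intro c' hc'
      fin_cases c'
      · exact a0
      · exact absurd rfl hc'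
      · exact a2
    refine cusp_ptHyp_of_single hq0 hta hqep hqR 1 haway fun ht => ?_
    set z := y - 1 with hz
    set w := z ^ (q - 1) / (q : F) with hw
    have hρ1 : (V 1).valuation ρ = 1 := hρ.val_eq_one ht.le
    have hw1 : (V 1).valuation w = 1 := Cg.val_eq_one hρ' hρ1
    have hw0 : w ≠ 0 := ne_zero_of_val_eq_one hw1
    have hz0 : z ≠ 0 := by
      intro h0
      apply hw0
      rw [hw, h0, zero_pow (by omega), zero_div]
    have hqw : (q : F) * w = z ^ (q - 1) := by
      rw [hw]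
      field_simp
    have hwR : w ∈ R := by
      refine hqep w ?_ fun c hc => ?_
      · rw [hqw]
        exact R.pow_mem hy.1 _
      · by_cases h : c = 1
        · subst h
          exact mem_iff_val_le.mpr hw1.le
        · exact absurd (haway c h) (not_away_of_through hc)
    have hwu : RUnit R w := by
      rcases runit_or_mem_rad hwR with h | h
      · exact h
      · exfalso
        have h1 : w - ρ ∈ rad R := mem_rad_of_val_lt ht.le (R.sub_mem hwR hρ.mem) hρ'
        exact ((mem_rad_iff_of_sub hadd h1).mp h).2 hρ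
    have hvz : (V 1).valuation z = (V 1).valuation ϖm := by
      have h1 : (V 1).valuation z ^ (q - 1) = (V 1).valuation ϖm ^ (q - 1) := by
        rw [ram1, ← map_pow, ← hqw, map_mul, hw1, mul_one]
      exact (pow_left_inj₀ zero_le zero_le (by omega)).mp h1
    refine princ_of hqep 1 hy.1 hz0 (k := 1) ?_ c1
      (fun y' hy' => hvz ▸ approx_val_le_unif unif1 hy')
      (fun c hc ht' => absurd (haway c hc) (not_away_of_through ht'))
    have e : (q : F) ^ 1 / z = z ^ (q - 2) * w⁻¹ := by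
      have h2 : z ^ (q - 1) = z ^ (q - 2) * z := by
        rw [← pow_succ]
        congr 1
        omega
      rw [pow_one, hw, h2]
      field_simp
    rw [e]
    exact R.mul_mem (R.pow_mem hy.1 _) hwu.inv_mem
  · -- `y⁻¹ ∈ rad R`: only `V 0`
    have a1 : Away R (V 1) := (hta 1).resolve_left fun ht => by
      have h1 : (V 1).valuation (y⁻¹ - 1⁻¹) < 1 := Cg.inv c1 (map_one _)
      rw [inv_one] at h1
      exact cusp_false_of_sub_one hadd hy (mem_rad_of_val_lt ht.le (R.sub_mem hy.1 R.one_mem) h1)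
    have a2 : Away R (V 2) := (hta 2).resolve_left fun ht => by
      have h1 : (V 2).valuation (y⁻¹ * u'' ^ (q ^ 2 - 1) - 1) < 1 := by
        have e : y⁻¹ * u'' ^ (q ^ 2 - 1) - 1 = -(y⁻¹ * (y - u'' ^ (q ^ 2 - 1))) := by
          field_simp
          ring
        rw [e, Valuation.map_neg, map_mul]
        exact lt_of_le_of_lt (mul_le_of_le_one_left' (mem_iff_val_le.mp (ht.le _ hy.1))) c2
      exact cusp_false_of_sub_one hadd (mul_mem_rad hy.1 hu''N)
        (mem_rad_of_val_lt ht.le (R.sub_mem (R.mul_mem hy.1 hu''N.1) R.one_mem) h1)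
    have haway : ∀ c', c' ≠ (0 : Fin 3) → Away R (V c') := by
      intro c' hc'
      fin_cases c'
      · exact absurd rfl hc'
      · exact a1
      · exact a2
    exact cusp_ptHyp_of_single hq0 hta hqep hqR 0 haway
      fun _ => cusp_princ_q hq0 hqep hqR 0 unif0 haway

end Fermat.Agent.BAD.Model
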