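/-
Project BAD, layer MODEL (helper98): `PtHyp` at a cuspidal point from helper38's `CuspData`
(blocks `BAD/Model/Cusp/*`), in the form used by the assembly `model_of_instData`
(`Through ∨ Away` and the local `q`-expansion principle are supplied by the BUILD toolbox).
-/
import Fermat.Agent.BAD.Model.Cusp.Dichotomy
import Fermat.Agent.BAD.Model.Cusp.Mid
import Fermat.Agent.BAD.Model.Cusp.Through
import Fermat.Agent.S36.BP.Build.LocalCrit

set_option autoImplicit false

namespace Fermat.Agent.BAD.Model

open Fermat.Agent.S18 Fermat.Agent.S36.BP Fermat.Agent.S36.BP.Build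

variable {F : Type*} [Field F] {K₀ : Type*} [Field K₀] [Algebra K₀ F]
  {A₀ : ValuationSubring K₀} {q : ℕ} {V : Fin 3 → ValuationSubring F} {R : Subring F}

/-- `PtBase` from `IsPt`, `Through ∨ Away` and `LocQep`. -/
theorem ptBase_of (hR : IsPt A₀ R) (hta : ∀ c, Through R (V c) ∨ Away R (V c))
    (hqep : LocQep q V R) (hq0 : (q : F) ≠ 0) (hqR : (q : F) ∈ rad R) : PtBase A₀ q V R where
  isPt := hR
  leLoc_or_away := fun c => (hta c).imp (fun h => ⟨h.le, h.loc⟩) id
  not_all_away := by
    intro h
    obtain ⟨c, hc⟩ := exists_through hqep hq0 hqR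
    exact not_away_of_through hc (h c)
  qep := by
    intro y hy h
    refine hqep y hy fun c hc => ?_
    rcases h c with h | h
    · exact h
    · exact absurd h (not_away_of_through hc)

/-- **Cuspidal points**, from `CuspData`. -/
theorem ptHyp_of_cuspData {ϖm : F} {c : ℕ → ℕ → K₀} {s s' s'' : F} {Eα Eβ : Subfield F}
    {Nα Nβ : F →* F} (hb : BaseHyp A₀ q) (hR : IsPt A₀ R)
    (hta : ∀ c, Through R (V c) ∨ Away R (V c)) (hqep : LocQep q V R) (hqR : (q : F) ∈ rad R)
    (unif0 : IsUnif (V 0) (q : F)) (unif1 : IsUnif (V 1) ϖm) (unif2 : IsUnif (V 2) (q : F))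
    (ram1 : (V 1).valuation ϖm ^ (q - 1) = (V 1).valuation (q : F))
    (D : CuspData A₀ q V c s s' s'') (hs : s ∈ rad R) : PtHyp V Eα Eβ Nα Nβ R := by
  have hP : PtBase A₀ q V R := ptBase_of hR hta hqep unif0.ne_zero hqR
  have main : ∀ i : Fin 3, (∀ i', i' ≠ i → Away R (V i')) → Princ R (V i) →
      PtHyp V Eα Eβ Nα Nβ R := by
    intro i hA hPr
    have hT : Through R (V i) := by
      rcases hta i with h | h
      · exact h
      · exfalso
        apply hP.not_all_away
        intro i'
        by_cases hi : i' = i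
        · exact hi ▸ h
        · exact hA i' hi
    exact ⟨hta, ⟨i, hT, hPr⟩, Or.inl ⟨i, hA⟩⟩
  rcases D.trichotomy hb.prime.two_le hP hs with h | h | h
  · have hA : ∀ i', i' ≠ (0 : Fin 3) → Away R (V i') := by
      intro i' hi
      fin_cases i'
      · exact absurd rfl hi
      · exact h.2.2.1
      · exact h.2.2.2
    exact main 0 hA (princ_of_unram hP 0 unif0 hA)
  · exact main 1 h.away (h.princ hb unif1 ram1 hP D hs)
  · have hA : ∀ i', i' ≠ (2 : Fin 3) → Away R (V i') := by
      intro i' hi
      fin_cases i'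
      · exact h.2.2.1
      · exact h.2.2.2
      · exact absurd rfl hi
    exact main 2 hA (princ_of_unram hP 2 unif2 hA)

end Fermat.Agent.BAD.Model
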