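/-
Project BAD, layer MODEL (helper65): the cuspidal points from the two modular equations ONLY.

For ANY local normal `R` (`IsPt A₀ R`, no valuations, no `q`-expansion principle) with
`s = 1/j ∈ rad R`, the two relations `Rel q c s s'`, `Rel q c s'' s'` (`s' = 1/j(qz)`,
`s'' = 1/j(q²z)`) give, for `y = s / s'' = j(q²z)/j(z)`:
* `Rel.tri`  : `y ∈ rad R ∨ y - 1 ∈ rad R ∨ y⁻¹ ∈ rad R`;
* `Rel.psi`  : if `y - 1 ∈ rad R` then `1 + y + ... + y^(q-1) ∈ s R`.
`ptHyp_of_cusp_psi` is the variant of node A3 (`ptHyp_of_cusp`) which uses `Rel.psi` instead of the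
auxiliary unit `ρ`.
-/
import Fermat.Agent.BAD.Model.Cusp
import Fermat.Agent.BAD.Model.Cusp.Dichotomy
import Fermat.Agent.BAD.Model.Cusp.Mid

set_option autoImplicit false

noncomputable section

namespace Fermat.Agent.BAD.Model

open Fermat.Agent.S18 Fermat.Agent.S36.BP Fermat.Agent.S36.BP.Build IntermediateField Polynomial

section Alg

variable {F : Type*} [Field F] {q : ℕ}

/-- `y^q - 1 = (y-1) ((y-1)^(q-1) + q U(y-1))`. -/
theorem cuspRel_binomial {U : ℤ[X]}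
    (hU : (1 + X : ℤ[X]) ^ q - 1 = X * (X ^ (q - 1) + C (q : ℤ) * U)) (y : F) :
    y ^ q - 1 = (y - 1) * ((y - 1) ^ (q - 1) + (q : F) * aeval (y - 1) U) := by
  have h := congrArg (aeval (y - 1)) hU
  simp only [map_sub, map_pow, map_add, map_one, aeval_X, map_mul, map_natCast] at h
  rw [← h]
  congr 2
  ring

/-- `1 + y + ... + y^(q-1) = (y-1)^(q-1) + q U(y-1)`. -/
theorem cuspRel_geom_sum {U : ℤ[X]}
    (hU : (1 + X : ℤ[X]) ^ q - 1 = X * (X ^ (q - 1) + C (q : ℤ) * U)) (y : F) :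
    ∑ i ∈ Finset.range q, y ^ i = (y - 1) ^ (q - 1) + (q : F) * aeval (y - 1) U := by
  have hpoly : ∑ i ∈ Finset.range q, (1 + X : ℤ[X]) ^ i = X ^ (q - 1) + C (q : ℤ) * U := by
    have h1 : (∑ i ∈ Finset.range q, (1 + X : ℤ[X]) ^ i) * ((1 + X) - 1) = (1 + X) ^ q - 1 :=
      geom_sum_mul _ _
    rw [hU, add_sub_cancel_left, mul_comm] at h1
    exact mul_left_cancel₀ X_ne_zero h1
  have h := congrArg (aeval (y - 1)) hpoly
  simp only [map_sum, map_pow, map_add, map_one, aeval_X, map_mul, map_natCast] at h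
  rw [← h]
  refine Finset.sum_congr rfl fun i _ => ?_
  congr 1
  ring

end Alg

variable {K₀ F : Type*} [Field K₀] [Field F] [Algebra K₀ F]
variable {A₀ : ValuationSubring K₀} {q : ℕ} {R : Subring F} {c : ℕ → ℕ → K₀} {s s' s'' : F}

/-- `T^q/S + S^q/T = - ε`. -/
theorem Rel.sum_eq {S T : F} (h : Rel q c S T) (hS0 : S ≠ 0) (hT0 : T ≠ 0) :
    T ^ q / S + S ^ q / T = - eps q c S T := by
  unfold Rel at h
  field_simp
  linear_combination h

/-- The three types of cuspidal points, for an arbitrary local normal ring. -/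
theorem Rel.types (hR : IsPt A₀ R) (hq : q.Prime) (hc : ∀ a b, c a b ∈ A₀)
    (h0 : A₀.valuation (c 0 0) = 1) (h : Rel q c s s') (h'' : Rel q c s'' s')
    (hs0 : s ≠ 0) (hs'0 : s' ≠ 0) (hs''0 : s'' ≠ 0) (hne : s ≠ s'') (hs : s ∈ rad R) :
    (RUnit R (s ^ q / s') ∧ RUnit R (s' ^ q / s'')) ∨
    (RUnit R (s ^ q / s') ∧ RUnit R (s'' ^ q / s') ∧ s' ^ q / s ∈ rad R ∧ s' ^ q / s'' ∈ rad R) ∨
    (RUnit R (s' ^ q / s) ∧ RUnit R (s'' ^ q / s')) := by
  have hq2 : 2 ≤ q := hq.two_le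
  have hs' : s' ∈ rad R := h.mem_rad hR hc hs
  have hs'' : s'' ∈ rad R := h''.symm.mem_rad hR (fun a b => hc b a) hs'
  rcases h.dichotomy hR hq2 hc h0 hs0 hs'0 hs with ⟨a1, a2⟩ | ⟨a1, a2⟩
  · rcases h''.dichotomy hR hq2 hc h0 hs''0 hs'0 hs'' with ⟨b1, b2⟩ | ⟨b1, b2⟩
    · exact Or.inr (Or.inl ⟨a1, b1, a2, b2⟩)
    · exact Or.inl ⟨a1, b1⟩
  · rcases h''.dichotomy hR hq2 hc h0 hs''0 hs'0 hs'' with ⟨b1, b2⟩ | ⟨b1, b2⟩
    · exact Or.inr (Or.inr ⟨a1, b1⟩)
    · exfalso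
      have hyU : RUnit R (s / s'') := by
        have e : s / s'' = (s' ^ q / s'') / (s' ^ q / s) := by
          field_simp
        rw [e]
        exact b1.div a1
      have hzR : s / s'' - 1 ∈ R := R.sub_mem hyU.mem R.one_mem
      obtain ⟨U, hU, -⟩ := exists_binomial_poly hq
      obtain ⟨D₀, hD₀R, hD₀⟩ := exists_eps_sub_eps (q := q) (c := c)
        (fun a b => hR.const_mem _ (hc a b)) hs.1 hs''.1 hs'.1
      have key := key_identity hs0 hs'0 hs''0 hne h h'' hD₀ (cuspRel_binomial hU (s / s''))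
      have hL : s'' ^ q / s' * ((s / s'' - 1) ^ (q - 1) + (q : F) * aeval (s / s'' - 1) U) ∈
          rad R := by
        rw [mul_comm]
        exact mul_mem_rad (R.add_mem (R.pow_mem hzR _)
          (R.mul_mem (natCast_mem R q) (aeval_int_mem U hzR))) b2
      have hRU : RUnit R (s' ^ q / s - s'' * D₀) := by
        refine hR.runit_of_cr (b := s' ^ q / s) ?_ a1
        unfold Cr
        have e : s' ^ q / s - s'' * D₀ - s' ^ q / s = -(D₀ * s'') := by ring
        rw [e]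
        exact neg_mem_rad (mul_mem_rad hD₀R hs'')
      rw [key] at hL
      exact hL.2 hRU

theorem cuspRel_sq_sub_one_ne (hq : 2 ≤ q) : q ^ 2 - 1 ≠ 0 := by
  have : 4 ≤ q ^ 2 := by nlinarith
  omega

theorem cuspRel_pow_sq (hq : 2 ≤ q) (x : F) : (x ^ q) ^ q = x ^ (q ^ 2 - 1) * x := by
  rw [← pow_mul, ← sq, ← pow_succ]
  congr 1
  have := cuspRel_sq_sub_one_ne hq
  omega

/-- type 0: `y⁻¹ ∈ rad R`. -/
theorem cuspRel_type0 (hq : 2 ≤ q) (hs0 : s ≠ 0) (hs'0 : s' ≠ 0) (hs''0 : s'' ≠ 0)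
    (hs : s ∈ rad R) (a : RUnit R (s ^ q / s')) (b : RUnit R (s' ^ q / s'')) :
    (s / s'')⁻¹ ∈ rad R := by
  have e : (s / s'')⁻¹ = ((s ^ q / s') ^ q * (s' ^ q / s''))⁻¹ * s ^ (q ^ 2 - 1) := by
    rw [div_pow, cuspRel_pow_sq hq s]
    have h1 : s ^ (q ^ 2 - 1) ≠ 0 := pow_ne_zero _ hs0
    have h2 : s' ^ q ≠ 0 := pow_ne_zero _ hs'0
    field_simp
  rw [e]
  exact mul_mem_rad ((a.pow q).mul b).inv_mem (cusp_pow_mem_rad hs (cuspRel_sq_sub_one_ne hq))

/-- type 2: `y ∈ rad R`. -/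
theorem cuspRel_type2 (hq : 2 ≤ q) (hs0 : s ≠ 0) (hs'0 : s' ≠ 0) (hs''0 : s'' ≠ 0)
    (hs'' : s'' ∈ rad R) (a : RUnit R (s' ^ q / s)) (b : RUnit R (s'' ^ q / s')) :
    s / s'' ∈ rad R := by
  have e : s / s'' = ((s'' ^ q / s') ^ q * (s' ^ q / s))⁻¹ * s'' ^ (q ^ 2 - 1) := by
    rw [div_pow, cuspRel_pow_sq hq s'']
    have h1 : s'' ^ (q ^ 2 - 1) ≠ 0 := pow_ne_zero _ hs''0
    have h2 : s' ^ q ≠ 0 := pow_ne_zero _ hs'0
    field_simp
  rw [e]
  exact mul_mem_rad ((b.pow q).mul a).inv_mem (cusp_pow_mem_rad hs'' (cuspRel_sq_sub_one_ne hq))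

/-- type 1: `y - 1 ∈ rad R`. -/
theorem cuspRel_type1 (hR : IsPt A₀ R) (hq : q.Prime) (hqR : (q : F) ∈ rad R)
    (hc : ∀ a b, c a b ∈ A₀) (h : Rel q c s s') (h'' : Rel q c s'' s')
    (hs0 : s ≠ 0) (hs'0 : s' ≠ 0) (hs''0 : s'' ≠ 0) (hs : s ∈ rad R) (hs' : s' ∈ rad R)
    (hs'' : s'' ∈ rad R)
    (a : RUnit R (s ^ q / s')) (b : RUnit R (s'' ^ q / s')) (a2 : s' ^ q / s ∈ rad R)
    (b2 : s' ^ q / s'' ∈ rad R) : s / s'' - 1 ∈ rad R := by
  have hq0 : q ≠ 0 := hq.ne_zero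
  have hyq : (s / s'') ^ q = (s ^ q / s') / (s'' ^ q / s') := by
    rw [div_pow]
    field_simp
  have hyU : RUnit R (s / s'') := hR.runit_of_pow hq0 (hyq ▸ a.div b)
  have hzR : s / s'' - 1 ∈ R := R.sub_mem hyU.mem R.one_mem
  obtain ⟨U, hU, -⟩ := exists_binomial_poly hq
  obtain ⟨D₀, hD₀R, hD₀⟩ := exists_eps_sub_eps (q := q) (c := c)
    (fun a b => hR.const_mem _ (hc a b)) hs.1 hs''.1 hs'.1
  -- `a - b ∈ rad R`
  have hab : s ^ q / s' - s'' ^ q / s' ∈ rad R := by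
    have e : s ^ q / s' - s'' ^ q / s' =
        (-(D₀ * (s + -s'')) + -(s' ^ q / s)) + s' ^ q / s'' := by
      have e1 := h.sum_eq hs0 hs'0
      have e2 := h''.sum_eq hs''0 hs'0
      linear_combination e1 - e2 - hD₀
    rw [e]
    exact hR.add_rad _ (hR.add_rad _ (neg_mem_rad (mul_mem_rad hD₀R
      (hR.add_rad _ hs _ (neg_mem_rad hs'')))) _ (neg_mem_rad a2)) _ b2
  have hyq1 : (s / s'') ^ q - 1 ∈ rad R := by
    have e : (s / s'') ^ q - 1 = (s'' ^ q / s')⁻¹ * (s ^ q / s' - s'' ^ q / s') := by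
      rw [hyq]
      have := b.ne_zero
      field_simp
    rw [e]
    exact mul_mem_rad b.inv_mem hab
  rcases runit_or_mem_rad hzR with hz | hz
  · exfalso
    have e : (s / s'' - 1) ^ q = ((s / s'') ^ q - 1) +
        -(((s / s'' - 1) * aeval (s / s'' - 1) U) * (q : F)) := by
      rw [cuspRel_binomial hU (s / s'')]
      have : (s / s'' - 1) ^ q = (s / s'' - 1) * (s / s'' - 1) ^ (q - 1) := by
        rw [← pow_succ', Nat.sub_add_cancel hq.one_le]
      rw [this]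
      ring
    have h1 : (s / s'' - 1) ^ q ∈ rad R := by
      rw [e]
      exact hR.add_rad _ hyq1 _ (neg_mem_rad (mul_mem_rad
        (R.mul_mem hzR (aeval_int_mem U hzR)) hqR))
    exact h1.2 (hz.pow q)
  · exact hz

/-- type 1: `1 + y + ... + y^(q-1) ∈ s R`. -/
theorem cuspRel_type1_psi (hR : IsPt A₀ R) (hq : q.Prime)
    (hc : ∀ a b, c a b ∈ A₀) (h : Rel q c s s') (h'' : Rel q c s'' s')
    (hs0 : s ≠ 0) (hs'0 : s' ≠ 0) (hs''0 : s'' ≠ 0) (hne : s ≠ s'') (hs : s ∈ rad R)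
    (hs' : s' ∈ rad R) (hs'' : s'' ∈ rad R)
    (a : RUnit R (s ^ q / s')) (b : RUnit R (s'' ^ q / s')) :
    ∃ r ∈ R, ∑ i ∈ Finset.range q, (s / s'') ^ i = s * r := by
  have hq0 : q ≠ 0 := hq.ne_zero
  have hq2 : 2 ≤ q := hq.two_le
  have hyq : (s / s'') ^ q = (s ^ q / s') / (s'' ^ q / s') := by
    rw [div_pow]
    field_simp
  have hyU : RUnit R (s / s'') := hR.runit_of_pow hq0 (hyq ▸ a.div b)
  obtain ⟨U, hU, -⟩ := exists_binomial_poly hq
  obtain ⟨D₀, hD₀R, hD₀⟩ := exists_eps_sub_eps (q := q) (c := c)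
    (fun a b => hR.const_mem _ (hc a b)) hs.1 hs''.1 hs'.1
  have key := key_identity hs0 hs'0 hs''0 hne h h'' hD₀ (cuspRel_binomial hU (s / s''))
  have hρ : s' / s ∈ R := by
    have : s' / s = s ^ (q - 1) * (s ^ q / s')⁻¹ := by
      have h1 : s ^ q = s ^ (q - 1) * s := by rw [← pow_succ, Nat.sub_add_cancel (by omega)]
      rw [h1]
      field_simp
    rw [this]
    exact R.mul_mem (R.pow_mem hs.1 _) a.inv_mem
  refine ⟨(s'' ^ q / s')⁻¹ * ((s' / s) ^ 2 * s' ^ (q - 2) - (s / s'')⁻¹ * D₀),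
    R.mul_mem b.inv_mem (R.sub_mem (R.mul_mem (R.pow_mem hρ 2) (R.pow_mem hs'.1 _))
      (R.mul_mem hyU.inv_mem hD₀R)), ?_⟩
  rw [cuspRel_geom_sum hU]
  have h1 : s * ((s'' ^ q / s')⁻¹ * ((s' / s) ^ 2 * s' ^ (q - 2) - (s / s'')⁻¹ * D₀)) =
      (s'' ^ q / s')⁻¹ * (s' ^ q / s - s'' * D₀) := by
    have h2 : s' ^ q = s' ^ 2 * s' ^ (q - 2) := by rw [← pow_add]; congr 1; omega
    rw [h2]
    field_simp
  rw [h1, ← key, inv_mul_cancel_left₀ b.ne_zero]

/-- **Trichotomy at the cusps**, for an arbitrary local normal ring. -/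
theorem Rel.tri (hR : IsPt A₀ R) (hq : q.Prime) (hqR : (q : F) ∈ rad R) (hc : ∀ a b, c a b ∈ A₀)
    (h0 : A₀.valuation (c 0 0) = 1) (h : Rel q c s s') (h'' : Rel q c s'' s')
    (hs0 : s ≠ 0) (hs'0 : s' ≠ 0) (hs''0 : s'' ≠ 0) (hne : s ≠ s'') (hs : s ∈ rad R) :
    s / s'' ∈ rad R ∨ s / s'' - 1 ∈ rad R ∨ (s / s'')⁻¹ ∈ rad R := by
  have hs' : s' ∈ rad R := h.mem_rad hR hc hs
  have hs'' : s'' ∈ rad R := h''.symm.mem_rad hR (fun a b => hc b a) hs'
  rcases Rel.types hR hq hc h0 h h'' hs0 hs'0 hs''0 hne hs with ⟨a, b⟩ | ⟨a, b, a2, b2⟩ | ⟨a, b⟩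
  · exact Or.inr (Or.inr (cuspRel_type0 hq.two_le hs0 hs'0 hs''0 hs a b))
  · exact Or.inr (Or.inl (cuspRel_type1 hR hq hqR hc h h'' hs0 hs'0 hs''0 hs hs' hs'' a b a2 b2))
  · exact Or.inl (cuspRel_type2 hq.two_le hs0 hs'0 hs''0 hs'' a b)

/-- **The cyclotomic relation at the cusps of the middle component.** -/
theorem Rel.psi (hR : IsPt A₀ R) (hq : q.Prime) (hc : ∀ a b, c a b ∈ A₀)
    (h0 : A₀.valuation (c 0 0) = 1) (h : Rel q c s s') (h'' : Rel q c s'' s')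
    (hs0 : s ≠ 0) (hs'0 : s' ≠ 0) (hs''0 : s'' ≠ 0) (hne : s ≠ s'') (hs : s ∈ rad R)
    (hy : s / s'' - 1 ∈ rad R) : ∃ r ∈ R, ∑ i ∈ Finset.range q, (s / s'') ^ i = s * r := by
  have hs' : s' ∈ rad R := h.mem_rad hR hc hs
  have hs'' : s'' ∈ rad R := h''.symm.mem_rad hR (fun a b => hc b a) hs'
  have hyU : RUnit R (s / s'') := hR.runit_of_cr (b := 1) hy (RUnit.one R)
  rcases Rel.types hR hq hc h0 h h'' hs0 hs'0 hs''0 hne hs with ⟨a, b⟩ | ⟨a, b, -, -⟩ | ⟨a, b⟩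
  · exact absurd hyU.inv (cuspRel_type0 hq.two_le hs0 hs'0 hs''0 hs a b).2
  · exact cuspRel_type1_psi hR hq hc h h'' hs0 hs'0 hs''0 hne hs hs' hs'' a b
  · exact absurd hyU (cuspRel_type2 hq.two_le hs0 hs'0 hs''0 hs'' a b).2

section A3

variable {V : Fin 3 → ValuationSubring F}

/-- **Cuspidal points**, variant of `ptHyp_of_cusp` (node A3): the auxiliary unit `ρ` is replaced by
the cyclotomic relation `1 + y + ... + y^(q-1) ∈ u R` (`Rel.psi`) and `u` is a unit of `V 1`. -/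
theorem ptHyp_of_cusp_psi {ϖm u u'' y : F} {Eα Eβ : Subfield F} {Nα Nβ : F →* F} (hq : q.Prime)
    (hq0 : (q : F) ≠ 0) (hadd : ∀ a ∈ rad R, ∀ b ∈ rad R, a + b ∈ rad R)
    (hta : ∀ c, Through R (V c) ∨ Away R (V c)) (hqep : LocQep q V R) (hqR : (q : F) ∈ rad R)
    (unif0 : IsUnif (V 0) (q : F)) (unif1 : IsUnif (V 1) ϖm) (unif2 : IsUnif (V 2) (q : F))
    (ram1 : (V 1).valuation ϖm ^ (q - 1) = (V 1).valuation (q : F))
    (hu : u ∈ rad R) (hu'' : u'' ∈ rad R)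
    (htri : y ∈ rad R ∨ y - 1 ∈ rad R ∨ y⁻¹ ∈ rad R)
    (c0 : (V 0).valuation (y * u ^ (q ^ 2 - 1) - 1) < 1)
    (c1 : (V 1).valuation (y - 1) < 1)
    (c2 : (V 2).valuation (y - u'' ^ (q ^ 2 - 1)) < 1)
    (hu1 : (V 1).valuation u = 1)
    (hψ : y - 1 ∈ rad R → ∃ r ∈ R, ∑ i ∈ Finset.range q, y ^ i = u * r) :
    PtHyp V Eα Eβ Nα Nβ R := by
  have hq2 : 2 ≤ q := hq.two_le
  have hN : q ^ 2 - 1 ≠ 0 := cuspRel_sq_sub_one_ne hq2
  have huN : u ^ (q ^ 2 - 1) ∈ rad R := cusp_pow_mem_rad hu hN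
  have hu''N : u'' ^ (q ^ 2 - 1) ∈ rad R := cusp_pow_mem_rad hu'' hN
  have hvq0 : (V 1).valuation (q : F) ≠ 0 := (Valuation.ne_zero_iff _).mpr hq0
  -- it is enough to produce a unit `ρ` as in `ptHyp_of_cusp`
  suffices H : ∃ ρ : F, RUnit R ρ ∧ (V 1).valuation ((y - 1) ^ (q - 1) / (q : F) - ρ) < 1 by
    obtain ⟨ρ, hρ, hρ'⟩ := H
    exact ptHyp_of_cusp hq hq0 hadd hta hqep hqR unif0 unif1 unif2 ram1 hu hu'' htri c0 c1 c2 hρ hρ'
  -- `w = (y - 1)^(q-1) / q` is integral at `V 1`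
  have hwV : (V 1).valuation ((y - 1) ^ (q - 1) / (q : F)) ≤ 1 := by
    rw [map_div₀, div_le_one₀ (zero_lt_iff.mpr hvq0), map_pow, ← ram1]
    exact pow_le_pow_left₀ zero_le (approx_val_le_unif unif1 c1) _
  -- a general construction when some unit `e` of `R` is small at `V 1`
  have gen : ∀ e : F, RUnit R e → (V 1).valuation e < 1 →
      (V 1).valuation ((y - 1) ^ (q - 1) / (q : F) - e ^ (q - 1) / (q : F)) < 1 →
      ∃ ρ : F, RUnit R ρ ∧ (V 1).valuation ((y - 1) ^ (q - 1) / (q : F) - ρ) < 1 := by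
    intro e he hev hcong
    have hden : RUnit R ((q : F) + e ^ q) := by
      rcases runit_or_mem_rad (R.add_mem hqR.1 (he.pow q).mem) with h | h
      · exact h
      · exfalso
        have h1 := hadd _ h _ (neg_mem_rad hqR)
        have e1 : (q : F) + e ^ q + -(q : F) = e ^ q := by ring
        rw [e1] at h1
        exact h1.2 (he.pow q)
    refine ⟨e ^ (q - 1) / ((q : F) + e ^ q), (he.pow _).div hden, ?_⟩
    have hveq : (V 1).valuation (e ^ q) < (V 1).valuation (q : F) := by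
      have h1 : (V 1).valuation e ≤ (V 1).valuation ϖm := approx_val_le_unif unif1 hev
      have h2 : (V 1).valuation (e ^ q) = (V 1).valuation e ^ (q - 1) * (V 1).valuation e := by
        rw [map_pow, ← pow_succ, Nat.sub_add_cancel hq.one_le]
      rw [h2, ← ram1]
      have h3 : (V 1).valuation e ^ (q - 1) ≤ (V 1).valuation ϖm ^ (q - 1) :=
        pow_le_pow_left₀ zero_le h1 _
      have h4 : (V 1).valuation ϖm ^ (q - 1) ≠ 0 := by rw [ram1]; exact hvq0
      calc (V 1).valuation e ^ (q - 1) * (V 1).valuation e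
          ≤ (V 1).valuation ϖm ^ (q - 1) * (V 1).valuation e := mul_le_mul_left h3 _
        _ < (V 1).valuation ϖm ^ (q - 1) * 1 :=
            mul_lt_mul_of_pos_left hev (zero_lt_iff.mpr h4)
        _ = _ := mul_one _
    have hvden : (V 1).valuation ((q : F) + e ^ q) = (V 1).valuation (q : F) :=
      Valuation.map_add_eq_of_lt_left _ hveq
    have hsec : (V 1).valuation (e ^ (q - 1) / (q : F) - e ^ (q - 1) / ((q : F) + e ^ q)) < 1 := by
      have e2 : e ^ (q - 1) / (q : F) - e ^ (q - 1) / ((q : F) + e ^ q) =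
          (e ^ (q - 1) / (q : F)) * (e ^ q / ((q : F) + e ^ q)) := by
        have := hden.ne_zero
        field_simp
        ring
      rw [e2, map_mul]
      have h5 : (V 1).valuation (e ^ (q - 1) / (q : F)) ≤ 1 := by
        rw [map_div₀, div_le_one₀ (zero_lt_iff.mpr hvq0), map_pow, ← ram1]
        exact pow_le_pow_left₀ zero_le (approx_val_le_unif unif1 hev) _
      have h6 : (V 1).valuation (e ^ q / ((q : F) + e ^ q)) < 1 := by
        rw [map_div₀, hvden, div_lt_one₀ (zero_lt_iff.mpr hvq0)]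
        exact hveq
      exact lt_of_le_of_lt (mul_le_of_le_one_left' h5) h6
    exact Cg.trans hcong hsec
  rcases htri with hy | hy | hy
  · -- `y ∈ rad R`: `e = y - 1`
    have he : RUnit R (y - 1) := by
      rcases runit_or_mem_rad (R.sub_mem hy.1 R.one_mem) with h | h
      · exact h
      · exact (cusp_false_of_sub_one hadd hy h).elim
    exact gen (y - 1) he c1 (by rw [sub_self, map_zero]; exact zero_lt_one)
  · -- `y - 1 ∈ rad R`: `ρ = w`
    have hyR : y ∈ R := by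
      have := R.add_mem hy.1 R.one_mem
      rwa [sub_add_cancel] at this
    have hyrad : y ∉ rad R := fun h => cusp_false_of_sub_one hadd h hy
    have a0 : Away R (V 0) := (hta 0).resolve_left fun ht =>
      cusp_false_of_sub_one hadd (mul_mem_rad hyR huN)
        (mem_rad_of_val_lt ht.le (R.sub_mem (R.mul_mem hyR huN.1) R.one_mem) c0)
    have a2 : Away R (V 2) := (hta 2).resolve_left fun ht => by
      have h1 : y - u'' ^ (q ^ 2 - 1) ∈ rad R :=
        mem_rad_of_val_lt ht.le (R.sub_mem hyR hu''N.1) c2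
      exact hyrad ((mem_rad_iff_of_sub hadd h1).mpr hu''N)
    have haway : ∀ c', c' ≠ (1 : Fin 3) → Away R (V c') := by
      intro c' hc'
      fin_cases c'
      · exact a0
      · exact absurd rfl hc'
      · exact a2
    have only1 : ∀ x : F, (q : F) * x ∈ R → (V 1).valuation x ≤ 1 → x ∈ R := by
      intro x hx hx1
      refine hqep x hx fun c hc => ?_
      by_cases h : c = 1
      · subst h
        exact mem_iff_val_le.mpr hx1
      · exact absurd (haway c h) (not_away_of_through hc)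
    have hwR : (y - 1) ^ (q - 1) / (q : F) ∈ R := by
      refine only1 _ ?_ hwV
      rw [mul_div_cancel₀ _ hq0]
      exact R.pow_mem hy.1 _
    refine ⟨(y - 1) ^ (q - 1) / (q : F), ?_, by rw [sub_self, map_zero]; exact zero_lt_one⟩
    rcases runit_or_mem_rad hwR with h | h
    · exact h
    · exfalso
      obtain ⟨U, hU, hU0⟩ := exists_binomial_poly hq
      obtain ⟨r, hr, hψ'⟩ := hψ hy
      rw [cuspRel_geom_sum hU] at hψ'
      -- `w + U(z)` is a unit
      have hε : RUnit R ((y - 1) ^ (q - 1) / (q : F) + aeval (y - 1) U) := by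
        rcases runit_or_mem_rad (R.add_mem hwR (aeval_int_mem U hy.1)) with h' | h'
        · exact h'
        · exfalso
          have h1 := hadd _ (hadd _ h' _ (neg_mem_rad h)) _
            (neg_mem_rad (aeval_int_sub_mem_rad U hU0 hy))
          have e1 : (y - 1) ^ (q - 1) / (q : F) + aeval (y - 1) U +
              -((y - 1) ^ (q - 1) / (q : F)) + -(aeval (y - 1) U - 1) = 1 := by ring
          rw [e1] at h1
          exact h1.2 (RUnit.one R)
      have hu0 : u ≠ 0 := ne_zero_of_val_eq_one hu1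
      have e2 : (q : F) * u⁻¹ = r * ((y - 1) ^ (q - 1) / (q : F) + aeval (y - 1) U)⁻¹ := by
        have h3 : (q : F) * ((y - 1) ^ (q - 1) / (q : F) + aeval (y - 1) U) = u * r := by
          rw [← hψ', mul_add, mul_div_cancel₀ _ hq0]
        rw [eq_mul_inv_iff_mul_eq₀ hε.ne_zero, mul_right_comm, h3]
        field_simp
      have huinv : u⁻¹ ∈ R := by
        refine only1 _ ?_ (by rw [map_inv₀, hu1, inv_one])
        rw [e2]
        exact R.mul_mem hr hε.inv_mem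
      exact hu.2 ⟨hu0, hu.1, huinv⟩
  · -- `y⁻¹ ∈ rad R`: `e = 1 - y⁻¹`
    have hy0 : y ≠ 0 := by
      rintro rfl
      rw [zero_sub, Valuation.map_neg, map_one] at c1
      exact lt_irrefl _ c1
    have hvy : (V 1).valuation y = 1 := Cg.val_eq_one c1 (map_one _)
    have hinv : (V 1).valuation (y⁻¹ - 1) < 1 := by
      have h1 : (V 1).valuation (y⁻¹ - 1⁻¹) < 1 := Cg.inv c1 (map_one _)
      rwa [inv_one] at h1
    have he : RUnit R (1 - y⁻¹) := by
      rcases runit_or_mem_rad (R.sub_mem R.one_mem hy.1) with h | h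
      · exact h
      · exfalso
        have h1 := hadd _ h _ hy
        rw [sub_add_cancel] at h1
        exact h1.2 (RUnit.one R)
    have hev : (V 1).valuation (1 - y⁻¹) < 1 := by
      rw [← Valuation.map_neg, neg_sub]
      exact hinv
    refine gen (1 - y⁻¹) he hev ?_
    -- `w - e^(q-1)/q = (e^(q-1)/q) (y^(q-1) - 1)`
    have e3 : (y - 1) ^ (q - 1) / (q : F) - (1 - y⁻¹) ^ (q - 1) / (q : F) =
        ((1 - y⁻¹) ^ (q - 1) / (q : F)) * (y ^ (q - 1) - 1) := by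
      have h1 : y - 1 = (1 - y⁻¹) * y := by field_simp
      rw [h1, mul_pow]
      ring
    rw [e3, map_mul]
    have h5 : (V 1).valuation ((1 - y⁻¹) ^ (q - 1) / (q : F)) ≤ 1 := by
      rw [map_div₀, div_le_one₀ (zero_lt_iff.mpr hvq0), map_pow, ← ram1]
      exact pow_le_pow_left₀ zero_le (approx_val_le_unif unif1 hev) _
    have h6 : (V 1).valuation (y ^ (q - 1) - 1) < 1 := by
      have h7 : Cg (V 1) (y ^ (q - 1)) (1 ^ (q - 1)) := Cg.pow c1 (map_one _).le _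
      rwa [one_pow] at h7
    exact lt_of_le_of_lt (mul_le_of_le_one_left' h5) h6

end A3

end Fermat.Agent.BAD.Model

end
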