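/-
Project BAD, layer MODEL (architect helper98), node A4: the field `norm_unit` of `HalfPt`.
-/
import Fermat.Agent.BAD.Model.Inst
import Fermat.Agent.S36.BP.Rad

set_option autoImplicit false

namespace Fermat.Agent.BAD.Model

open Fermat.Agent.S18 Fermat.Agent.S36.BP IntermediateField

variable {F : Type*} [Field F] {K₀ : Type*} [Field K₀] [Algebra K₀ F]
  {A₀ : ValuationSubring K₀} {q : ℕ} {V : Fin 3 → ValuationSubring F} {R : Subring F}

/-- If `N b ≡ b ^ q` on a component `W` through `𝔫`, the norm preserves the units of `B_𝔫`. -/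
theorem norm_unit_of_cong (B : Subring F) (W : ValuationSubring F)
    (N : F →* F) (hN : ∀ b ∈ B, N b ∈ B) (hres : ∀ b ∈ B, W.valuation (N b - b ^ q) < 1)
    (𝔫 : Ideal B) [𝔫.IsMaximal] (h𝔫 : ∀ b : B, W.valuation (b : F) < 1 → b ∈ 𝔫) :
    ∀ ε : F, RUnit (locSub B 𝔫) ε → RUnit (locSub B 𝔫) (N ε) := by
  have hprime : 𝔫.IsPrime := Ideal.IsMaximal.isPrime inferInstance
  -- the norm preserves the complement of `𝔫`
  have key : ∀ b : B, b ∉ 𝔫 → (⟨N b, hN b b.2⟩ : B) ∉ 𝔫 := by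
    intro b hb hNb
    have h1 : (⟨N b, hN b b.2⟩ - b ^ q : B) ∈ 𝔫 := h𝔫 _ (by
      push_cast
      exact hres b b.2)
    have h2 : b ^ q ∈ 𝔫 := by
      have := 𝔫.sub_mem hNb h1
      rwa [sub_sub_cancel] at this
    exact hb (hprime.mem_of_pow_mem q h2)
  have hne : ∀ b : B, b ∉ 𝔫 → (b : F) ≠ 0 := by
    intro b hb h0
    apply hb
    have : b = 0 := Subtype.ext h0
    rw [this]
    exact 𝔫.zero_mem
  rintro ε ⟨hε0, ⟨a, s, hs, e⟩, ⟨a', s', hs', e'⟩⟩
  have ha : a ∉ 𝔫 := by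
    intro ha
    have h1 : a * a' = s * s' := by
      apply Subtype.ext
      push_cast
      rw [← e, ← e']
      field_simp
    have h2 : s * s' ∈ 𝔫 := h1 ▸ 𝔫.mul_mem_right a' ha
    exact (hprime.mem_or_mem h2).elim hs hs'
  have hNe : N ε * N s = N a := by rw [← map_mul, e]
  have hNs0 : N (s : F) ≠ 0 := hne _ (key s hs)
  have hNa0 : N (a : F) ≠ 0 := hne _ (key a ha)
  have hNε0 : N ε ≠ 0 := by
    intro h
    rw [h, zero_mul] at hNe
    exact hNa0 hNe.symm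
  refine ⟨hNε0, ⟨⟨N a, hN a a.2⟩, ⟨N s, hN s s.2⟩, key s hs, hNe⟩,
    ⟨⟨N s, hN s s.2⟩, ⟨N a, hN a a.2⟩, key a ha, ?_⟩⟩
  show (N ε)⁻¹ * N a = N s
  rw [← hNe]
  field_simp

/-- `Half.res_b` + `Half.ord_b` give the congruence for all elements of `Vb`. -/
theorem Half.cong_pow {ϖm : F} {E : Subfield F} {N : F →* F} {Va Vm Vb : ValuationSubring F}
    (H : Half q ϖm E N Va Vm Vb) (hq : 0 < q) {y : F} (hy : y ∈ Vb) :
    Vb.valuation (N y - y ^ q) < 1 := by
  rcases (mem_iff_val_le.1 hy).lt_or_eq with h | h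
  · have h1 : Vb.valuation y ^ q < 1 := pow_lt_one₀ zero_le h hq.ne'
    refine Valuation.map_sub_lt _ ?_ ?_
    · rw [H.ord_b]
      exact h1
    · rw [map_pow]
      exact h1
  · exact H.res_b y h

end Fermat.Agent.BAD.Model
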