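/-
Project BAD, layer MODEL (architect helper98), node A2: the non-cuspidal points.
`ptHyp_of_nc` : `PtHyp` at a point `R` at which the vertical elements `T, X₁, Y₁, X₂, Y₂` are
regular.  Statement as in `BAD/Model/WIP/Skeleton.lean`, section A2.
-/
import Fermat.Agent.BAD.Model.Inst
import Fermat.Agent.S18.Chart.Unif
import Fermat.Agent.S36.BP.Rad
import Fermat.Agent.S36.BP.Build.LocalCrit

set_option autoImplicit false

namespace Fermat.Agent.BAD.Model

open Fermat.Agent.S18 Fermat.Agent.S36.BP Fermat.Agent.S36.BP.Build IntermediateField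

variable {F : Type*} [Field F] {K₀ : Type*} [Field K₀] [Algebra K₀ F]
  {A₀ : ValuationSubring K₀} {q : ℕ} {V : Fin 3 → ValuationSubring F} {R : Subring F}

/-! ### generalities on uniformisers -/

private theorem nc_val_unif_lt_one {W : ValuationSubring F} {ϖ : F} (h : IsUnif W ϖ) :
    W.valuation ϖ < 1 := by
  refine lt_of_le_of_ne (mem_iff_val_le.1 h.mem) fun h1 => ?_
  exact h.inv_notMem (val_eq_one_iff.1 h1).2.2

private theorem nc_val_le_unif {W : ValuationSubring F} {ϖ : F} (h : IsUnif W ϖ) {y : F}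
    (hy : W.valuation y < 1) : W.valuation y ≤ W.valuation ϖ := by
  by_cases hy0 : y = 0
  · rw [hy0, map_zero]; exact zero_le
  have hmem : y / ϖ ∈ W := by
    refine h.div_mem (mem_iff_val_le.2 hy.le) fun hinv => ?_
    have h1 : W.valuation y = 1 := val_eq_one_iff.2 ⟨hy0, mem_iff_val_le.2 hy.le, hinv⟩
    exact absurd h1 hy.ne
  have h1 := mem_iff_val_le.1 hmem
  rw [map_div₀] at h1
  have hne : W.valuation ϖ ≠ 0 := (Valuation.ne_zero_iff _).2 h.ne_zero
  rwa [div_le_one₀ (zero_lt_iff.2 hne)] at h1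

/-- `1` is not in the radical. -/
private theorem nc_one_notMem_rad : (1 : F) ∉ rad R := fun h => h.2 (RUnit.one R)

/-- an element congruent to `-1` is a unit. -/
private theorem nc_runit_of_add_one (hadd : ∀ a ∈ rad R, ∀ b ∈ rad R, a + b ∈ rad R) {w : F}
    (hw : w ∈ R) (h : w + 1 ∈ rad R) : RUnit R w := by
  rcases runit_or_mem_rad hw with h1 | h1
  · exact h1
  · exfalso
    have := hadd _ h _ (neg_mem_rad h1)
    have e : w + 1 + -w = 1 := by ring
    rw [e] at this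
    exact nc_one_notMem_rad this

/-! ### the orders of the vertical elements -/

section Elts

variable {T X₁ Y₁ X₂ Y₂ : F}

private theorem nc_ne (hq0 : (q : F) ≠ 0) (hE : VertElts q V T X₁ Y₁ X₂ Y₂) :
    X₁ ≠ 0 ∧ Y₁ ≠ 0 ∧ X₂ ≠ 0 ∧ Y₂ ≠ 0 := by
  have h1 : X₁ * Y₁ ≠ 0 := by rw [hE.mul₁]; exact pow_ne_zero _ hq0
  have h2 : X₂ * Y₂ ≠ 0 := by rw [hE.mul₂]; exact pow_ne_zero _ hq0
  exact ⟨left_ne_zero_of_mul h1, right_ne_zero_of_mul h1, left_ne_zero_of_mul h2,
    right_ne_zero_of_mul h2⟩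

private theorem nc_X₁_2 (hE : VertElts q V T X₁ Y₁ X₂ Y₂) :
    (V 2).valuation X₁ = (V 2).valuation (q : F) ^ 2 := by
  rw [← map_pow, ← hE.mul₁, map_mul, hE.Y₁_2, mul_one]

private theorem nc_Y₂_0 (hE : VertElts q V T X₁ Y₁ X₂ Y₂) :
    (V 0).valuation Y₂ = (V 0).valuation (q : F) ^ 2 := by
  rw [← map_pow, ← hE.mul₂, map_mul, hE.X₂_0, one_mul]

private theorem nc_X₂_1 (hE : VertElts q V T X₁ Y₁ X₂ Y₂) :
    (V 1).valuation X₂ = (V 1).valuation (q : F) ^ 2 := by
  rw [← map_pow, ← hE.mul₂, map_mul, hE.Y₂_1, mul_one]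

private theorem nc_X₂_2 (hE : VertElts q V T X₁ Y₁ X₂ Y₂) :
    (V 2).valuation X₂ = (V 2).valuation (q : F) ^ 2 := by
  rw [← map_pow, ← hE.mul₂, map_mul, hE.Y₂_2, mul_one]

/-- `Ξ = X₂ / X₁` has orders `(0, 2 (q - 1), 0)`. -/
private theorem nc_Ξ_0 (hE : VertElts q V T X₁ Y₁ X₂ Y₂) : (V 0).valuation (X₂ / X₁) = 1 := by
  rw [map_div₀, hE.X₂_0, hE.X₁_0, div_one]

private theorem nc_Ξ_1 (hE : VertElts q V T X₁ Y₁ X₂ Y₂) :
    (V 1).valuation (X₂ / X₁) = (V 1).valuation (q : F) ^ 2 := by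
  rw [map_div₀, nc_X₂_1 hE, hE.X₁_1, div_one]

private theorem nc_Ξ_2 (hq0 : (q : F) ≠ 0) (hE : VertElts q V T X₁ Y₁ X₂ Y₂) :
    (V 2).valuation (X₂ / X₁) = 1 := by
  rw [map_div₀, nc_X₂_2 hE, nc_X₁_2 hE]
  exact div_self (pow_ne_zero _ ((Valuation.ne_zero_iff _).2 hq0))

end Elts

/-- **Non-cuspidal points.** -/
theorem ptHyp_of_nc {ϖm T X₁ Y₁ X₂ Y₂ : F} {Eα Eβ : Subfield F} {Nα Nβ : F →* F} (hq : q.Prime)
    (hq0 : (q : F) ≠ 0) (hadd : ∀ a ∈ rad R, ∀ b ∈ rad R, a + b ∈ rad R)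
    (hta : ∀ c, Through R (V c) ∨ Away R (V c)) (hqep : LocQep q V R) (hqR : (q : F) ∈ rad R)
    (unif0 : IsUnif (V 0) (q : F)) (unif1 : IsUnif (V 1) ϖm) (unif2 : IsUnif (V 2) (q : F))
    (ram1 : (V 1).valuation ϖm ^ (q - 1) = (V 1).valuation (q : F))
    (hE : VertElts q V T X₁ Y₁ X₂ Y₂)
    (hX₁ : X₁ ∈ R) (hY₁ : Y₁ ∈ R) (hX₂ : X₂ ∈ R) (hY₂ : Y₂ ∈ R) (hT : T ∈ R)
    (thick : (∀ c, Through R (V c)) → ∃ z z' : F, z ∈ R ∧ z' ∈ R ∧ RUnit R (z * z' / (q : F)) ∧
      (V 2).valuation z < 1 ∧ (V 2).valuation z' = 1 ∧ (V 0).valuation z = 1 ∧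
      (V 1).valuation z = 1)
    (hα : (∀ c, Through R (V c)) → HalfPt Eα Nα (V 0) (V 1) R)
    (hβ : (∀ c, Through R (V c)) → HalfPt Eβ Nβ (V 2) (V 1) R) :
    PtHyp V Eα Eβ Nα Nβ R := by
  obtain ⟨hX₁0, hY₁0, hX₂0, hY₂0⟩ := nc_ne hq0 hE
  have h2 : 2 ≤ q := hq.two_le
  have hq1 : q - 1 ≠ 0 := by omega
  have hv0 : (V 0).valuation (q : F) < 1 := nc_val_unif_lt_one unif0
  have hv2 : (V 2).valuation (q : F) < 1 := nc_val_unif_lt_one unif2
  have hv1 : (V 1).valuation (q : F) < 1 := by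
    rw [← ram1]
    exact pow_lt_one₀ zero_le (nc_val_unif_lt_one unif1) hq1
  have hA : ∀ c, ¬ Through R (V c) → Away R (V c) := fun c h => (hta c).resolve_left h
  have hTh : ∀ c, ¬ Away R (V c) → Through R (V c) := fun c h => (hta c).resolve_right h
  -- `Ξ = X₂ / X₁`
  have hΞ0 : X₂ / X₁ ≠ 0 := div_ne_zero hX₂0 hX₁0
  have hΞ : X₂ / X₁ ∈ R := by
    refine mem_of hqep (k := 2) ?_ fun c _ => ?_
    · have : (q : F) ^ 2 * (X₂ / X₁) = X₂ * Y₁ := by
        rw [← hE.mul₁]; field_simp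
      rw [this]
      exact R.mul_mem hX₂ hY₁
    · rw [mem_iff_val_le]
      fin_cases c
      · exact (nc_Ξ_0 hE).le
      · change (V 1).valuation (X₂ / X₁) ≤ 1
        rw [nc_Ξ_1 hE]
        exact pow_le_one₀ zero_le hv1.le
      · exact (nc_Ξ_2 hq0 hE).le
  -- the indicator functions are units away from their component
  have uX₁ : Away R (V 2) → RUnit R X₁ := fun hAw => by
    refine runit_of hqep hX₁ hX₁0 (k := 2) ?_ fun c hc => ?_
    · have : (q : F) ^ 2 / X₁ = Y₁ := by rw [← hE.mul₁]; field_simp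
      rw [this]; exact hY₁
    · fin_cases c
      · exact hE.X₁_0
      · exact hE.X₁_1
      · exact absurd hAw (not_away_of_through hc)
  have uY₂ : Away R (V 0) → RUnit R Y₂ := fun hAw => by
    refine runit_of hqep hY₂ hY₂0 (k := 2) ?_ fun c hc => ?_
    · have : (q : F) ^ 2 / Y₂ = X₂ := by rw [← hE.mul₂]; field_simp
      rw [this]; exact hX₂
    · fin_cases c
      · exact absurd hAw (not_away_of_through hc)
      · exact hE.Y₂_1
      · exact hE.Y₂_2
  have uΞ : Away R (V 1) → RUnit R (X₂ / X₁) := fun hAw => by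
    refine runit_of hqep hΞ hΞ0 (k := 2) ?_ fun c hc => ?_
    · have : (q : F) ^ 2 / (X₂ / X₁) = X₁ * Y₂ := by rw [← hE.mul₂]; field_simp
      rw [this]; exact R.mul_mem hX₁ hY₂
    · fin_cases c
      · exact nc_Ξ_0 hE
      · exact absurd hAw (not_away_of_through hc)
      · exact nc_Ξ_2 hq0 hE
  -- the indicator functions are nonunits on their component
  have rX₁ : Through R (V 2) → X₁ ∈ rad R := fun h => by
    refine mem_rad_of_val_lt h.le hX₁ ?_
    rw [nc_X₁_2 hE]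
    exact pow_lt_one₀ zero_le hv2 two_ne_zero
  have rY₂ : Through R (V 0) → Y₂ ∈ rad R := fun h => by
    refine mem_rad_of_val_lt h.le hY₂ ?_
    rw [nc_Y₂_0 hE]
    exact pow_lt_one₀ zero_le hv0 two_ne_zero
  -- the three implications
  have i01 : Through R (V 0) → Through R (V 1) → Through R (V 2) := fun t0 t1 => by
    refine hTh 2 fun hAw => ?_
    have h3 : Y₂ - X₁ ∈ rad R := mem_rad_of_val_lt t1.le (R.sub_mem hY₂ hX₁) hE.Q3
    exact ((mem_rad_iff_of_sub hadd h3).1 (rY₂ t0)).2 (uX₁ hAw)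
  have i12 : Through R (V 1) → Through R (V 2) → Through R (V 0) := fun t1 t2 => by
    refine hTh 0 fun hAw => ?_
    have h3 : Y₂ - X₁ ∈ rad R := mem_rad_of_val_lt t1.le (R.sub_mem hY₂ hX₁) hE.Q3
    exact ((mem_rad_iff_of_sub hadd h3).2 (rX₁ t2)).2 (uY₂ hAw)
  have i02 : Through R (V 0) → Through R (V 2) → Through R (V 1) := fun t0 t2 => by
    refine hTh 1 fun hAw => ?_
    have h3 : X₂ / X₁ - X₁ ^ (q - 1) ∈ rad R :=
      mem_rad_of_val_lt t0.le (R.sub_mem hΞ (R.pow_mem hX₁ _)) hE.Q1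
    have h4 : X₁ ^ (q - 1) ∈ rad R := by
      have := (unit_mul_pow_mem_rad_iff (RUnit.one R) hX₁ hq1).2 (rX₁ t2)
      rwa [one_mul] at this
    exact ((mem_rad_iff_of_sub hadd h3).2 h4).2 (uΞ hAw)
  -- principality with `z = q` on a reduced component which is alone
  have hqq : (q : F) ^ 1 / (q : F) ∈ R := by
    rw [pow_one, div_self hq0]; exact R.one_mem
  have p0 : Away R (V 1) → Away R (V 2) → Princ R (V 0) := fun a1 a2 => by
    refine princ_of hqep 0 hqR.1 hq0 (k := 1) hqq hv0 (fun y hy => nc_val_le_unif unif0 hy)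
      fun c hc hTc => ?_
    fin_cases c
    · exact absurd rfl hc
    · exact absurd a1 (not_away_of_through hTc)
    · exact absurd a2 (not_away_of_through hTc)
  have p2 : Away R (V 0) → Away R (V 1) → Princ R (V 2) := fun a0 a1 => by
    refine princ_of hqep 2 hqR.1 hq0 (k := 1) hqq hv2 (fun y hy => nc_val_le_unif unif2 hy)
      fun c hc hTc => ?_
    fin_cases c
    · exact absurd a0 (not_away_of_through hTc)
    · exact absurd a1 (not_away_of_through hTc)
    · exact absurd rfl hc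
  -- principality with `z = T` on the middle component
  have p1 : Through R (V 1) → Away R (V 0) → Away R (V 2) → Princ R (V 1) := fun t1 a0 a2 => by
    have hwV : (V 1).valuation (T ^ (q - 1) * X₁ / (q : F)) = 1 := by
      have hcg : Cg (V 1) (T ^ (q - 1) * X₁ / (q : F)) (-1) := by
        rw [cg_def, sub_neg_eq_add]; exact hE.Q4
      exact hcg.val_eq_one (by rw [Valuation.map_neg, map_one])
    have hw : T ^ (q - 1) * X₁ / (q : F) ∈ R := by
      refine hqep _ ?_ fun c hc => ?_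
      · rw [mul_div_cancel₀ _ hq0]
        exact R.mul_mem (R.pow_mem hT _) hX₁
      · fin_cases c
        · exact absurd a0 (not_away_of_through hc)
        · exact mem_iff_val_le.2 hwV.le
        · exact absurd a2 (not_away_of_through hc)
    have hwu : RUnit R (T ^ (q - 1) * X₁ / (q : F)) :=
      nc_runit_of_add_one hadd hw (mem_rad_of_val_lt t1.le (R.add_mem hw R.one_mem) hE.Q4)
    have hT0 : T ≠ 0 := by
      intro h0
      apply hwu.ne_zero
      rw [h0, zero_pow hq1, zero_mul, zero_div]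
    have hTv : (V 1).valuation T = (V 1).valuation ϖm := by
      have h3 : (V 1).valuation T ^ (q - 1) = (V 1).valuation ϖm ^ (q - 1) := by
        rw [ram1]
        have h4 := hwV
        rw [map_div₀, map_mul, map_pow, hE.X₁_1, mul_one,
          div_eq_one_iff_eq ((Valuation.ne_zero_iff _).2 hq0)] at h4
        exact h4
      exact (pow_left_inj₀ zero_le zero_le hq1).1 h3
    refine princ_of hqep 1 hT hT0 (k := 1) ?_ ?_ (fun y hy => ?_) fun c hc hTc => ?_
    · have : (q : F) ^ 1 / T = T ^ (q - 2) * X₁ * (T ^ (q - 1) * X₁ / (q : F))⁻¹ := by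
        have h3 : T ^ (q - 1) = T ^ (q - 2) * T := by
          rw [← pow_succ]; congr 1; omega
        rw [h3]
        field_simp
      rw [this]
      exact R.mul_mem (R.mul_mem (R.pow_mem hT _) hX₁) hwu.inv_mem
    · rw [hTv]; exact nc_val_unif_lt_one unif1
    · rw [hTv]; exact nc_val_le_unif unif1 hy
    · fin_cases c
      · exact absurd a0 (not_away_of_through hTc)
      · exact absurd rfl hc
      · exact absurd a2 (not_away_of_through hTc)
  -- principality at the crossing points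
  have p3 : (∀ c, Through R (V c)) → Princ R (V 2) := fun hall => by
    obtain ⟨z, z', hz, hz', hu, hz2, hz'2, hz0, hz1⟩ := thick hall
    have hzne : z ≠ 0 := ne_zero_of_val_eq_one hz0
    have hz'ne : z' ≠ 0 := ne_zero_of_val_eq_one hz'2
    have hzv : (V 2).valuation z = (V 2).valuation (q : F) := by
      have h4 := hu.val_eq_one (hall 2).le
      rw [map_div₀, map_mul, hz'2, mul_one,
        div_eq_one_iff_eq ((Valuation.ne_zero_iff _).2 hq0)] at h4
      exact h4
    refine princ_of hqep 2 hz hzne (k := 1) ?_ hz2 (fun y hy => ?_) fun c hc _ => ?_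
    · have : (q : F) ^ 1 / z = z' * (z * z' / (q : F))⁻¹ := by
        field_simp
      rw [this]
      exact R.mul_mem hz' hu.inv_mem
    · rw [hzv]; exact nc_val_le_unif unif2 hy
    · fin_cases c
      · exact hz0
      · exact hz1
      · exact absurd rfl hc
  have hne : Through R (V 0) ∨ Through R (V 1) ∨ Through R (V 2) := by
    obtain ⟨c, hc⟩ := exists_through hqep hq0 hqR
    fin_cases c
    · exact Or.inl hc
    · exact Or.inr (Or.inl hc)
    · exact Or.inr (Or.inr hc)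
  by_cases t0 : Through R (V 0) <;> by_cases t1 : Through R (V 1) <;>
    by_cases t2 : Through R (V 2)
  · have hall : ∀ c, Through R (V c) := by
      intro c
      fin_cases c
      · exact t0
      · exact t1
      · exact t2
    exact ⟨hta, ⟨2, t2, p3 hall⟩, Or.inr ⟨hall, hα hall, hβ hall⟩⟩
  · exact (t2 (i01 t0 t1)).elim
  · exact (t1 (i02 t0 t2)).elim
  · refine ⟨hta, ⟨0, t0, p0 (hA 1 t1) (hA 2 t2)⟩, Or.inl ⟨0, fun c' hc' => ?_⟩⟩
    fin_cases c'
    · exact (hc' rfl).elim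
    · exact hA 1 t1
    · exact hA 2 t2
  · exact (t0 (i12 t1 t2)).elim
  · refine ⟨hta, ⟨1, t1, p1 t1 (hA 0 t0) (hA 2 t2)⟩, Or.inl ⟨1, fun c' hc' => ?_⟩⟩
    fin_cases c'
    · exact hA 0 t0
    · exact (hc' rfl).elim
    · exact hA 2 t2
  · refine ⟨hta, ⟨2, t2, p2 (hA 0 t0) (hA 1 t1)⟩, Or.inl ⟨2, fun c' hc' => ?_⟩⟩
    fin_cases c'
    · exact hA 0 t0
    · exact hA 1 t1
    · exact (hc' rfl).elim
  · rcases hne with h | h | h
    · exact (t0 h).elim
    · exact (t1 h).elim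
    · exact (t2 h).elim

end Fermat.Agent.BAD.Model
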