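/-
Project BAD, layer MODEL, node A6: the `(u, u⁻¹)`-lemma.   Owner: helper296.
-/
import Fermat.Agent.BAD.Model.Inst
import Fermat.Agent.S36.BP.Rad
import Fermat.Agent.S18.Chart.Const

set_option autoImplicit false

namespace Fermat.Agent.BAD.Model

open Fermat.Agent.S18 Fermat.Agent.S36.BP IntermediateField

variable {F : Type*} [Field F] {K₀ : Type*} [Field K₀] [Algebra K₀ F]
  {A₀ : ValuationSubring K₀} {q : ℕ} {V : Fin 3 → ValuationSubring F} {R : Subring F}

namespace Seidenberg

theorem runit_add_of_rad (hadd : ∀ a ∈ rad R, ∀ b ∈ rad R, a + b ∈ rad R) {u r : F}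
    (hu : RUnit R u) (hr : r ∈ rad R) : RUnit R (u + r) := by
  rcases runit_or_mem_rad (R.add_mem hu.mem hr.1) with h | h
  · exact h
  · exfalso
    have h1 : u ∈ rad R := by
      have : u = (u + r) + -r := by ring
      rw [this]
      exact hadd _ h _ (neg_mem_rad hr)
    exact h1.2 hu

theorem sum_mem_rad (hadd : ∀ a ∈ rad R, ∀ b ∈ rad R, a + b ∈ rad R) {ι : Type*} (s : Finset ι)
    (f : ι → F) (h : ∀ i ∈ s, f i ∈ rad R) : ∑ i ∈ s, f i ∈ rad R := by
  classical
  induction s using Finset.induction_on with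
  | empty => simpa using zero_mem_rad R
  | insert a s ha ih =>
    rw [Finset.sum_insert ha]
    exact hadd _ (h _ (Finset.mem_insert_self _ _)) _
      (ih fun i hi => h i (Finset.mem_insert_of_mem hi))

theorem pow_mem_rad {w : F} (hw : w ∈ rad R) {k : ℕ} (hk : k ≠ 0) : w ^ k ∈ rad R := by
  obtain ⟨j, rfl⟩ := Nat.exists_eq_succ_of_ne_zero hk
  rw [pow_succ]
  exact mul_mem_rad (R.pow_mem hw.1 j) hw

/-- an integrally closed subring containing the constants and `x` contains the chart of `x`. -/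
theorem chart_le_of_mem_pt (hR : IsPt A₀ R) {x : F} (hx : x ∈ R) :
    ∀ b ∈ chart A₀.toSubring x, b ∈ R := by
  intro b hb
  rw [mem_chart_iff_isIntegral] at hb
  have hp : ∀ r : polyRing A₀.toSubring x, (r : F) ∈ R := by
    rintro ⟨r, hr⟩
    rw [mem_polyRing_iff] at hr
    obtain ⟨p, hp, rfl⟩ := hr
    change Polynomial.aeval x p ∈ R
    rw [Polynomial.aeval_eq_sum_range]
    refine R.sum_mem fun i _ => ?_
    rw [Algebra.smul_def]
    exact R.mul_mem (hR.const_mem _ (hp i)) (R.pow_mem hx i)
  exact hR.intClosed b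
    (isIntegral_of_forall_exists_algebraMap (fun r => ⟨⟨_, hp r⟩, rfl⟩) hb)

end Seidenberg

open Seidenberg

/-- `R` local and integrally closed in `F`; if `y` is a root of a polynomial over `R` with a unit
coefficient then `y ∈ R` or `y⁻¹ ∈ R` (Kaplansky, Thm 67; induction on the degree: if the leading
coefficient `a₀` is not a unit, `a₀ y` is integral, hence in `R`; lower the degree). -/
theorem seidenberg (hadd : ∀ a ∈ rad R, ∀ b ∈ rad R, a + b ∈ rad R)
    (hcl : ∀ y : F, IsIntegral R y → y ∈ R) (y : F) (p : Polynomial R)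
    (hp : Polynomial.aeval y p = 0) (hu : ∃ i, RUnit R (p.coeff i : F)) : y ∈ R ∨ y⁻¹ ∈ R := by
  induction' hn : p.natDegree using Nat.strong_induction_on with n ih generalizing p
  obtain ⟨i, hi⟩ := hu
  have hp0 : p ≠ 0 := by
    rintro rfl
    exact hi.1 (by simp)
  have hb : (p.leadingCoeff : F) * y ∈ R := by
    apply hcl
    refine ⟨p.integralNormalization, Polynomial.monic_integralNormalization hp0, ?_⟩
    exact Polynomial.integralNormalization_aeval_eq_zero hp (fun x hx => Subtype.ext hx)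
  rcases runit_or_mem_rad p.leadingCoeff.2 with hua | hra
  · left
    have : y = (p.leadingCoeff : F)⁻¹ * ((p.leadingCoeff : F) * y) := by
      rw [← mul_assoc, inv_mul_cancel₀ hua.1, one_mul]
    rw [this]
    exact R.mul_mem hua.inv_mem hb
  rcases runit_or_mem_rad hb with hub | hrb
  · right
    have : y⁻¹ = (p.leadingCoeff : F) * ((p.leadingCoeff : F) * y)⁻¹ := by
      have h1 := hub.1
      have ha : (p.leadingCoeff : F) ≠ 0 := left_ne_zero_of_mul h1
      have hy : y ≠ 0 := right_ne_zero_of_mul h1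
      field_simp
    rw [this]
    exact R.mul_mem p.leadingCoeff.2 hub.inv_mem
  -- lower the degree
  have hin : i ≠ n := by
    rintro rfl
    apply hra.2
    rw [Polynomial.leadingCoeff, hn]
    exact hi
  have hilt : i < n := by
    by_contra h
    have h1 : p.natDegree < i := by omega
    rw [Polynomial.coeff_eq_zero_of_natDegree_lt h1] at hi
    exact hi.1 rfl
  have hdeg : (p.eraseLead + Polynomial.C (⟨(p.leadingCoeff : F) * y, hb⟩ : R) *
      Polynomial.X ^ (n - 1)).natDegree ≤ n - 1 := by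
    refine Polynomial.natDegree_add_le_of_degree_le ?_ (Polynomial.natDegree_C_mul_X_pow_le _ _)
    rw [← hn]
    exact Polynomial.eraseLead_natDegree_le p
  refine ih _ (by omega) (p.eraseLead + Polynomial.C (⟨(p.leadingCoeff : F) * y, hb⟩ : R) *
      Polynomial.X ^ (n - 1)) ?_ ⟨i, ?_⟩ rfl
  · have h1 := congrArg (Polynomial.aeval y) (Polynomial.eraseLead_add_C_mul_X_pow p)
    rw [hp, map_add, map_mul, Polynomial.aeval_C, map_pow, Polynomial.aeval_X, hn] at h1
    rw [map_add, map_mul, Polynomial.aeval_C, map_pow, Polynomial.aeval_X, ← h1]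
    congr 1
    change (p.leadingCoeff : F) * y * y ^ (n - 1) = (p.leadingCoeff : F) * y ^ n
    obtain ⟨j, rfl⟩ : ∃ j, n = j + 1 := ⟨n - 1, by omega⟩
    rw [Nat.add_sub_cancel, pow_succ]
    ring
  · rw [Polynomial.coeff_add, Polynomial.eraseLead_coeff_of_ne _ (by rw [hn]; exact hin),
      Polynomial.coeff_C_mul_X_pow]
    split_ifs with h
    · exact runit_add_of_rad hadd hi hrb
    · rw [add_zero]
      exact hi

/-- `J ≠ 0` integral over `A₀[J'']` and `J⁻¹ ∈ rad R` imply `J''⁻¹ ∈ rad R`.
(Divide the equation of `J` over `A₀[J'']` by `J ^ m`: a polynomial relation for `J''`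
over `R` with constant coefficient in `1 + rad R`; `seidenberg`; `J'' ∉ R` since otherwise
`J ∈ R`.)  The hypothesis `J ≠ 0` is necessary (`0⁻¹ = 0 ∈ rad R`). -/
theorem inv_mem_rad_of_integral (hR : IsPt A₀ R) {J J'' : F} (hJ0 : J ≠ 0)
    (h1 : J ∈ chart A₀.toSubring J'') (hJ : J⁻¹ ∈ rad R) : J''⁻¹ ∈ rad R := by
  classical
  -- `J'' ∉ R`
  have hnot : J'' ∉ R := by
    intro h
    have hJR : J ∈ R := chart_le_of_mem_pt hR h J h1
    exact hJ.2 ⟨inv_ne_zero hJ0, hJ.1, by rw [inv_inv]; exact hJR⟩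
  suffices h : J'' ∈ R ∨ J''⁻¹ ∈ R by
    rcases h with h | h
    · exact absurd h hnot
    · refine ⟨h, fun hu => hnot ?_⟩
      have := hu.inv_mem
      rwa [inv_inv] at this
  -- the equation
  rw [mem_chart_iff_isIntegral] at h1
  obtain ⟨P, hPm, hP⟩ := h1
  set m := P.natDegree with hm
  let φ : A₀.toSubring →+* R :=
    ((algebraMap K₀ F).comp A₀.toSubring.subtype).codRestrict R (fun a => hR.const_mem a a.2)
  have hφ : (algebraMap R F).comp φ = (algebraMap K₀ F).comp A₀.toSubring.subtype := by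
    ext a
    rfl
  have hg : ∀ i, ∃ g : Polynomial A₀.toSubring,
      Polynomial.aeval J'' (g.map φ) = ((P.coeff i : polyRing A₀.toSubring J'') : F) := by
    intro i
    obtain ⟨g, hg⟩ := (P.coeff i).2
    refine ⟨g, ?_⟩
    rw [← hg]
    change Polynomial.eval₂ (algebraMap R F) J'' (g.map φ)
      = Polynomial.eval₂ (algebraMap K₀ F) J'' (g.map A₀.toSubring.subtype)
    rw [Polynomial.eval₂_map, Polynomial.eval₂_map, hφ]
  choose g hg using hg
  set w : R := ⟨J⁻¹, hJ.1⟩ with hw
  refine seidenberg hR.add_rad hR.intClosed J''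
    (1 + ∑ i ∈ Finset.range m, Polynomial.C (w ^ (m - i)) * (g i).map φ) ?_ ⟨0, ?_⟩
  · rw [map_add, map_one, map_sum]
    have e1 : ∀ i ∈ Finset.range m,
        Polynomial.aeval J'' (Polynomial.C (w ^ (m - i)) * (g i).map φ)
          = J⁻¹ ^ m * (((P.coeff i : polyRing A₀.toSubring J'') : F) * J ^ i) := by
      intro i hi
      rw [Finset.mem_range] at hi
      rw [map_mul, Polynomial.aeval_C, hg]
      change J⁻¹ ^ (m - i) * _ = _
      have : J⁻¹ ^ m = J⁻¹ ^ (m - i) * J⁻¹ ^ i := by rw [← pow_add]; congr 1; omega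
      rw [this, inv_pow J i]
      field_simp
    rw [Finset.sum_congr rfl e1, ← Finset.mul_sum]
    rw [Polynomial.eval₂_eq_sum_range, Finset.sum_range_succ, ← hm, hm, hPm.coeff_natDegree,
      ← hm] at hP
    have e2 : ∑ i ∈ Finset.range m, ((P.coeff i : polyRing A₀.toSubring J'') : F) * J ^ i
        = - J ^ m := by
      have : ∑ i ∈ Finset.range m, ((P.coeff i : polyRing A₀.toSubring J'') : F) * J ^ i + J ^ m
          = 0 := by
        rw [← hP, map_one, one_mul]
        rfl
      linear_combination this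
    rw [e2, inv_pow]
    field_simp
    ring
  · rw [Polynomial.coeff_add, Polynomial.coeff_one_zero, Polynomial.finsetSum_coeff]
    push_cast
    apply runit_add_of_rad hR.add_rad (RUnit.one R)
    apply sum_mem_rad hR.add_rad
    intro i hi
    rw [Finset.mem_range] at hi
    rw [Polynomial.coeff_C_mul]
    push_cast
    rw [mul_comm]
    exact mul_mem_rad (Subtype.property _) (pow_mem_rad hJ (by omega))

end Fermat.Agent.BAD.Model
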