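/-
Project BAD, layer MODEL (architect helper98), node A5 (helper133):
thickness one at the crossing points, by the derivative trick.

Proof.  Write `x ↦ x̄` for the reduction `R → Λ` and `D = θ / θ t̄` (it preserves `R̄` by `hD2`), and
`b = t - t' ^ q`.  As `Λ` has characteristic `q`, `D b̄ = 1`; in particular `b̄ ≠ 0`.
(1) `b̄` generates the maximal ideal of `R̄`: `b̄ = r̄₁ τ̄`; if `r₁` is not a unit then
`b̄ = r̄₂ τ̄ ^ 2` and `1 = D b̄ ∈ τ̄ R̄`, absurd.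
(2) if `δ = (a / q) b` is not a unit then `δ̄ = r̄ b̄`, so the reduction of `a / q` is `r̄`, and `hD1`,
`hD2` give `X̄₁ (r̄' + t̄ ^ (q - 1)) = 1`, absurd since `X₁` is not a unit.
-/
import Fermat.Agent.BAD.Model.Inst
import Fermat.Agent.S36.BP.Rad

set_option autoImplicit false

namespace Fermat.Agent.BAD.Model

open Fermat.Agent.S18 Fermat.Agent.S36.BP IntermediateField

variable {F : Type*} [Field F] {K₀ : Type*} [Field K₀] [Algebra K₀ F]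
  {A₀ : ValuationSubring K₀} {q : ℕ} {R : Subring F}

/-- **Thickness one.**  `W = V 0`; `ρ : W → Λ` is the reduction of `q`-expansions (`Λ = k((q))`),
`θ = q d/dq`.  `a = t' - t ^ q`, `b = t - t' ^ q`, `X₁ = q dt/dt'`.
`hD1` is the reduction of `θ ((t' - t^q)/q) = (θ t)(q^q) - t^(q-1) θ t` and `X₁ = θ t / (θ t)(q^q)`;
`hD2` says that `d/dt` preserves the local ring of the component `W` at the point. -/
theorem thick_of_derivation {Λ : Type*} [Field Λ] (W : ValuationSubring F) (ρ : W →+* Λ)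
    (hρ : ∀ y : W, ρ y = 0 ↔ W.valuation (y : F) < 1) (θ : Derivation ℤ Λ Λ)
    (hq : q.Prime) (hq0 : (q : F) ≠ 0) (hqW : W.valuation (q : F) < 1)
    (hR : IsPt A₀ R) (hle : R ≤ W.toSubring)
    (hdvr : ∃ τ ∈ rad R, ∀ y ∈ rad R, ∃ r ∈ R, W.valuation (y - r * τ) < 1)
    {t t' X₁ : F} (ht : t ∈ R) (ht' : t' ∈ R) (hX₁ : X₁ ∈ rad R)
    (ha : (t' - t ^ q) / (q : F) ∈ W) (hb : t - t' ^ q ∈ rad R)
    (hδ : (t' - t ^ q) * (t - t' ^ q) / (q : F) ∈ R)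
    (htr : ∀ c ∈ A₀, W.valuation (t - algebraMap K₀ F c) = 1)
    (hθt : θ (ρ ⟨t, hle ht⟩) ≠ 0)
    (hD1 : θ (ρ ⟨_, ha⟩) * ρ ⟨X₁, hle hX₁.1⟩ =
      θ (ρ ⟨t, hle ht⟩) * (1 - ρ ⟨t, hle ht⟩ ^ (q - 1) * ρ ⟨X₁, hle hX₁.1⟩))
    (hD2 : ∀ r : R, ∃ r' : R, θ (ρ (Subring.inclusion hle r)) =
      θ (ρ ⟨t, hle ht⟩) * ρ (Subring.inclusion hle r')) :
    RUnit R ((t' - t ^ q) * (t - t' ^ q) / (q : F)) := by
  classical
  -- the reduction map on `R`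
  let φ : R →+* Λ := ρ.comp (Subring.inclusion hle)
  have hφ0 : ∀ r : R, φ r = 0 ↔ W.valuation (r : F) < 1 := fun r => hρ _
  -- nonunits never reduce to `1`
  have hne1 : ∀ y : R, (y : F) ∈ rad R → φ y ≠ 1 := by
    intro y hy h1
    have hu : RUnit R (1 - (y : F)) := by
      rcases runit_or_mem_rad (R.sub_mem R.one_mem y.2) with h | h
      · exact h
      · exfalso
        have h2 := hR.add_rad _ h _ hy
        rw [sub_add_cancel] at h2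
        exact h2.2 (RUnit.one R)
    have hv : W.valuation (1 - (y : F)) = 1 := RUnit.val_eq_one (fun r hr => hle hr) hu
    have h3 : φ (1 - y) = 0 := by rw [map_sub, map_one, h1, sub_self]
    rw [hφ0] at h3
    have h4 : (((1 - y : R)) : F) = 1 - (y : F) := by push_cast; rfl
    rw [h4, hv] at h3
    exact lt_irrefl _ h3
  -- characteristic `q`
  have hchar : (q : Λ) = 0 := by
    have h : ρ (q : W) = 0 := by
      rw [hρ]
      simpa using hqW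
    simpa using h
  have hθpow : ∀ x : Λ, θ (x ^ q) = 0 := by
    intro x
    rw [Derivation.leibniz_pow, nsmul_eq_mul, hchar, zero_mul]
  have hD2' : ∀ r : R, ∃ r' : R, θ (φ r) = θ (φ ⟨t, ht⟩) * φ r' := hD2
  have hθt' : θ (φ ⟨t, ht⟩) ≠ 0 := hθt
  -- the element `b`
  have hbR : (⟨t - t' ^ q, hb.1⟩ : R) = ⟨t, ht⟩ - ⟨t', ht'⟩ ^ q := rfl
  have hθb : θ (φ ⟨t - t' ^ q, hb.1⟩) = θ (φ ⟨t, ht⟩) := by
    rw [hbR, map_sub, map_pow, map_sub, hθpow, sub_zero]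
  have hb0 : φ ⟨t - t' ^ q, hb.1⟩ ≠ 0 := by
    intro h
    rw [h, map_zero] at hθb
    exact hθt' hθb.symm
  -- the uniformiser
  obtain ⟨τ, hτ, hτgen⟩ := hdvr
  have hgen : ∀ y : R, (y : F) ∈ rad R → ∃ r : R, φ y = φ r * φ ⟨τ, hτ.1⟩ := by
    intro y hy
    obtain ⟨r, hr, hv⟩ := hτgen y hy
    refine ⟨⟨r, hr⟩, ?_⟩
    have h : φ (y - ⟨r, hr⟩ * ⟨τ, hτ.1⟩) = 0 := by
      rw [hφ0]
      exact hv
    rwa [map_sub, map_mul, sub_eq_zero] at h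
  -- (1) `b` is a uniformiser as well
  have hτb : ∃ r₀ : R, φ ⟨τ, hτ.1⟩ = φ r₀ * φ ⟨t - t' ^ q, hb.1⟩ := by
    obtain ⟨r₁, h₁⟩ := hgen ⟨t - t' ^ q, hb.1⟩ hb
    rcases runit_or_mem_rad r₁.2 with hu | hrad
    · refine ⟨⟨(r₁ : F)⁻¹, hu.inv_mem⟩, ?_⟩
      have h : φ ⟨(r₁ : F)⁻¹, hu.inv_mem⟩ * φ r₁ = 1 := by
        rw [← map_mul, ← map_one φ]
        congr 1
        ext
        exact inv_mul_cancel₀ hu.ne_zero
      rw [h₁, ← mul_assoc, h, one_mul]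
    · exfalso
      obtain ⟨r₂, h₂⟩ := hgen r₁ hrad
      obtain ⟨r₂', h₂'⟩ := hD2' r₂
      obtain ⟨τ', hτ'⟩ := hD2' ⟨τ, hτ.1⟩
      have e : θ (φ ⟨t - t' ^ q, hb.1⟩) =
          θ (φ ⟨t, ht⟩) * φ ((r₂' * ⟨τ, hτ.1⟩ + 2 * r₂ * τ') * ⟨τ, hτ.1⟩) := by
        rw [h₁, h₂, Derivation.leibniz, Derivation.leibniz, h₂', hτ']
        simp only [smul_eq_mul, map_mul, map_add, map_ofNat]
        ring
      rw [hθb] at e
      have e1 : φ ((r₂' * ⟨τ, hτ.1⟩ + 2 * r₂ * τ') * ⟨τ, hτ.1⟩) = 1 :=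
        (mul_left_cancel₀ hθt' (e.symm.trans (mul_one _).symm))
      exact hne1 _ (mul_mem_rad (r₂' * ⟨τ, hτ.1⟩ + 2 * r₂ * τ').2 hτ) e1
  -- (2) the contradiction
  by_contra hnot
  have hδrad : (t' - t ^ q) * (t - t' ^ q) / (q : F) ∈ rad R := ⟨hδ, hnot⟩
  obtain ⟨r, hr⟩ := hgen ⟨_, hδ⟩ hδrad
  obtain ⟨r₀, hr₀⟩ := hτb
  have hδ' : φ ⟨_, hδ⟩ = ρ ⟨_, ha⟩ * φ ⟨t - t' ^ q, hb.1⟩ := by
    change ρ _ = ρ _ * ρ _
    rw [← map_mul]
    congr 1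
    ext
    change (t' - t ^ q) * (t - t' ^ q) / (q : F) = (t' - t ^ q) / (q : F) * (t - t' ^ q)
    ring
  have haq : ρ ⟨_, ha⟩ = φ (r * r₀) := by
    apply mul_right_cancel₀ hb0
    rw [← hδ', hr, hr₀, map_mul, mul_assoc]
  obtain ⟨r', hr'⟩ := hD2' (r * r₀)
  rw [haq, hr', mul_assoc] at hD1
  have h5 := mul_left_cancel₀ hθt' hD1
  have h6 : φ ((r' + ⟨t, ht⟩ ^ (q - 1)) * ⟨X₁, hX₁.1⟩) = 1 := by
    rw [map_mul, map_add, map_pow]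
    have h7 : φ r' * φ ⟨X₁, hX₁.1⟩ = 1 - φ ⟨t, ht⟩ ^ (q - 1) * φ ⟨X₁, hX₁.1⟩ := h5
    linear_combination h7
  exact hne1 _ (mul_mem_rad (r' + ⟨t, ht⟩ ^ (q - 1)).2 hX₁) h6

end Fermat.Agent.BAD.Model
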